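import Fermat.Agent.Isogeny.Hom
import Fermat.Prelude.Def_FLTPrelim_GaloisRep
import Mathlib.FieldTheory.Galois.Infinite

/-!
# Galois descent of Vélu's curve

For a Galois-stable finite subgroup `C`, Vélu's coordinate functions are Galois equivariant and
the quotient curve has a model over the base field (`exists_veluBase`).
-/

set_option autoImplicit false

open WeierstrassCurve Polynomial
open scoped Polynomial.Bivariate WeierstrassCurve.Affine

namespace Fermat.Agent.Isogeny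

universe u v

variable {k : Type v} [Field k] {K : Type u} [Field K] [DecidableEq K] [Algebra k K]
  {E : Affine k}

/-- The abscissa commutes with the Galois action. -/
lemma xc_smul (σ : K ≃ₐ[k] K) (P : (E⁄K).Point) : xc (σ • P) = σ (xc P) := by
  cases P with
  | zero => exact (map_zero σ).symm
  | some => rfl

lemma gc_smul (σ : K ≃ₐ[k] K) (P : (E⁄K).Point) : gc (σ • P) = σ (gc P) := by
  cases P with
  | zero => exact (map_zero σ).symm
  | some x y h =>
    show 2 * σ y + (E⁄K).a₁ * σ x + (E⁄K).a₃ = σ (2 * y + (E⁄K).a₁ * x + (E⁄K).a₃)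
    simp only [WeierstrassCurve.baseChange, map_a₁, map_a₃, map_add, map_mul, map_ofNat,
      AlgEquiv.commutes]

/-- A finite stable subgroup. -/
def IsStable (C : AddSubgroup (E⁄K).Point) : Prop := ∀ σ : K ≃ₐ[k] K, ∀ P ∈ C, σ • P ∈ C

variable {C : AddSubgroup (E⁄K).Point} [Finite C]

/-- Sums over a stable subgroup are unchanged by the Galois action. -/
lemma IsStable.sum_Cf {M : Type*} [AddCommMonoid M] (hC : IsStable C) (σ : K ≃ₐ[k] K)
    (f : (E⁄K).Point → M) : ∑ Q ∈ Cf C, f (σ • Q) = ∑ Q ∈ Cf C, f Q :=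
  Finset.sum_nbij' (σ • ·) (σ⁻¹ • ·) (fun Q hQ => (mem_Cf C).mpr (hC σ Q ((mem_Cf C).mp hQ)))
    (fun Q hQ => (mem_Cf C).mpr (hC σ⁻¹ Q ((mem_Cf C).mp hQ)))
    (fun Q _ => inv_smul_smul σ Q) (fun Q _ => smul_inv_smul σ Q) (fun _ _ => rfl)

lemma IsStable.sum_Cs {M : Type*} [AddCommMonoid M] (hC : IsStable C) (σ : K ≃ₐ[k] K)
    (f : (E⁄K).Point → M) : ∑ Q ∈ Cs C, f (σ • Q) = ∑ Q ∈ Cs C, f Q := by
  refine Finset.sum_nbij' (σ • ·) (σ⁻¹ • ·) ?_ ?_ (fun Q _ => inv_smul_smul σ Q)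
    (fun Q _ => smul_inv_smul σ Q) (fun _ _ => rfl) <;>
  · intro Q hQ
    simp only [mem_Cs] at hQ ⊢
    exact ⟨(smul_ne_zero_iff_ne _).mpr hQ.1, hC _ Q hQ.2⟩

/-- Vélu's abscissa commutes with the Galois action for a stable subgroup. -/
lemma Xv_smul (hC : IsStable C) (σ : K ≃ₐ[k] K) (P : (E⁄K).Point) :
    Xv C (σ • P) = σ (Xv C P) := by
  rw [Xv, Xv, map_sum, ← hC.sum_Cf σ]
  refine Finset.sum_congr rfl fun Q _ => ?_
  rw [← smul_add, xc_smul, xc_smul, map_sub]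

/-- Vélu's `2 y + a₁ x + a₃` commutes with the Galois action for a stable subgroup. -/
lemma Gv_smul (hC : IsStable C) (σ : K ≃ₐ[k] K) (P : (E⁄K).Point) :
    Gv C (σ • P) = σ (Gv C P) := by
  rw [Gv, Gv, map_sum, ← hC.sum_Cf σ]
  refine Finset.sum_congr rfl fun Q _ => ?_
  rw [← smul_add, gc_smul]

lemma tV_fixed (hC : IsStable C) (σ : K ≃ₐ[k] K) : σ (tV C) = tV C := by
  rw [tV, map_div₀, map_sum, map_ofNat, ← hC.sum_Cs σ tq]
  congr 1
  refine Finset.sum_congr rfl fun Q _ => ?_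
  simp only [tq, xc_smul, WeierstrassCurve.baseChange, map_b₂, map_b₄, map_add, map_mul, map_pow,
    map_ofNat, AlgEquiv.commutes]

lemma wV_fixed (hC : IsStable C) (σ : K ≃ₐ[k] K) : σ (wV C) = wV C := by
  rw [wV, map_div₀, map_sum, map_ofNat, ← hC.sum_Cs σ fun Q => xc Q * tq Q + uq Q]
  congr 1
  refine Finset.sum_congr rfl fun Q _ => ?_
  simp only [tq, uq, xc_smul, gc_smul, WeierstrassCurve.baseChange, map_b₂, map_b₄, map_add,
    map_mul, map_pow, map_ofNat, AlgEquiv.commutes]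

/-- Vélu's curve has a model over the base field. -/
theorem exists_veluBase [IsGalois k K] (hC : IsStable C) :
    ∃ E' : Affine k, E'.a₁ = E.a₁ ∧ E'.a₂ = E.a₂ ∧ E'.a₃ = E.a₃ ∧ veluCurve C = E'⁄K := by
  obtain ⟨t, ht⟩ := (InfiniteGalois.mem_range_algebraMap_iff_fixed (k := k) (tV C)).mpr
    (tV_fixed hC)
  obtain ⟨w, hw⟩ := (InfiniteGalois.mem_range_algebraMap_iff_fixed (k := k) (wV C)).mpr
    (wV_fixed hC)
  refine ⟨⟨E.a₁, E.a₂, E.a₃, E.a₄ - 5 * t, E.a₆ - E.b₂ * t - 7 * w⟩, rfl, rfl, rfl, ?_⟩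
  simp only [veluCurve, WeierstrassCurve.baseChange, WeierstrassCurve.map, map_sub, map_mul,
    map_ofNat, ht, hw]
  rw [← map_b₂]
  rfl

end Fermat.Agent.Isogeny
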