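import Fermat.Agent.Isogeny.Infinity

/-!
# Vélu's isogeny on points

For a subgroup `C` of odd order, Vélu's map is a group homomorphism `veluHom` from the points of
the curve to those of the quotient curve, with kernel `C`.
-/

set_option autoImplicit false

open WeierstrassCurve Polynomial
open scoped Polynomial.Bivariate WeierstrassCurve.Affine

namespace Fermat.Agent.Isogeny

universe u

/-- Three points with distinct abscissae on a line sum to zero. -/
lemma add_eq_neg_of_collinear {F : Type*} [Field F] [DecidableEq F] {E : Affine F}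
    {x₁ y₁ x₂ y₂ x₃ y₃ : F} (h₁ : E.Nonsingular x₁ y₁) (h₂ : E.Nonsingular x₂ y₂)
    (h₃ : E.Nonsingular x₃ y₃) (h12 : x₁ ≠ x₂) (h13 : x₁ ≠ x₃) (h23 : x₂ ≠ x₃) {m k : F}
    (e₁ : y₁ = m * x₁ + k) (e₂ : y₂ = m * x₂ + k) (e₃ : y₃ = m * x₃ + k) :
    Affine.Point.some _ _ h₁ + .some _ _ h₂ = -.some _ _ h₃ := by
  have hm : E.slope x₁ x₂ y₁ y₂ = m := by
    rw [Affine.slope_of_X_ne h12, div_eq_iff (sub_ne_zero.mpr h12)]
    linear_combination e₁ - e₂
  have hx : E.addX x₁ x₂ (E.slope x₁ x₂ y₁ y₂) = x₃ := by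
    have hp := congr_arg (eval x₃)
      (Affine.addPolynomial_slope h₁.1 h₂.1 (fun h => h12 h.1))
    simp only [Affine.addPolynomial, Affine.linePolynomial, Affine.polynomial, eval_sub,
      eval_add, eval_mul, eval_pow, eval_C, eval_X, eval_neg] at hp
    have he := (Affine.equation_iff ..).mp h₃.1
    rw [hm] at hp ⊢
    have h0 : (x₃ - x₁) * ((x₃ - x₂) * (x₃ - E.addX x₁ x₂ m)) = 0 := by
      linear_combination hp - he + (y₃ + (m * (x₃ - x₁) + y₁) + E.a₁ * x₃ + E.a₃) * (e₃ - e₁)
    simp only [mul_eq_zero, sub_ne_zero.mpr h13.symm, sub_ne_zero.mpr h23.symm, false_or,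
      sub_eq_zero] at h0
    exact h0.symm
  rw [Affine.Point.add_of_X_ne h12, Affine.Point.neg_some]
  simp only [Affine.Point.some.injEq, hx, true_and]
  rw [Affine.addY, Affine.negAddY, hx, hm]
  congr 1
  linear_combination e₁ - e₃

/-- The line function through `(x₁, y₁)` of slope `lam`. -/
def lineFn {R : Type*} [CommRing R] {E : Affine R} (lam x₁ y₁ : R) (P : E.Point) : R :=
  yc P - lam * xc P - (y₁ - lam * x₁)

section Chord

variable {K : Type u} [Field K] [DecidableEq K] {W : Affine K}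

/-- A point on the chord through `P₁`, `P₂` is one of `P₁`, `P₂`, `-(P₁ + P₂)`. -/
lemma eq_of_lineFn_eq_zero {x₁ y₁ x₂ y₂ : K} (h₁ : W.Nonsingular x₁ y₁)
    (h₂ : W.Nonsingular x₂ y₂) (hne : x₁ ≠ x₂) {Q : W.Point} (hQ : Q ≠ 0)
    (hl : lineFn (W.slope x₁ x₂ y₁ y₂) x₁ y₁ Q = 0) :
    Q = .some _ _ h₁ ∨ Q = .some _ _ h₂ ∨
      Q = -(.some _ _ h₁ + .some _ _ h₂ : W.Point) := by
  cases Q with
  | zero => exact absurd rfl hQ
  | some r s h =>
    set lam := W.slope x₁ x₂ y₁ y₂ with hlam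
    simp only [lineFn, xc_some, yc_some] at hl
    have hp := congr_arg (eval r)
      (Affine.addPolynomial_slope h₁.1 h₂.1 (fun h => hne h.1))
    simp only [Affine.addPolynomial, Affine.linePolynomial, Affine.polynomial, eval_sub,
      eval_add, eval_mul, eval_pow, eval_C, eval_X, eval_neg,
      ← hlam] at hp
    have he := (Affine.equation_iff ..).mp h.1
    have h0 : (r - x₁) * ((r - x₂) * (r - W.addX x₁ x₂ lam)) = 0 := by
      linear_combination hp - he + (s + (lam * (r - x₁) + y₁) + W.a₁ * r + W.a₃) * hl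
    have hy2 : y₂ = lam * (x₂ - x₁) + y₁ := by
      rw [hlam, Affine.slope_of_X_ne hne]
      have := sub_ne_zero.mpr hne
      field_simp
      ring
    simp only [mul_eq_zero, sub_eq_zero] at h0
    rcases h0 with h0 | h0 | h0 <;> subst h0
    · left; simp only [Affine.Point.some.injEq, true_and]; linear_combination hl
    · right; left; simp only [Affine.Point.some.injEq, true_and]; linear_combination hl - hy2
    · right; right
      rw [Affine.Point.add_of_X_ne hne, Affine.Point.neg_some]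
      simp only [Affine.Point.some.injEq, ← hlam, true_and, Affine.addY, Affine.negY_negY,
        Affine.negAddY]
      linear_combination hl

end Chord

variable {K : Type u} [Field K] {W : Affine K} [DecidableEq K] [W.IsElliptic] [IsAlgClosed K]
  [NeZero (2 : K)] {C : AddSubgroup W.Point} [Finite C]

/-- Values of `Xv`, `Gv` at three collinear points are collinear. -/
lemma exists_line (hodd : Odd (Nat.card C)) {P P' : W.Point} (hP : P ∉ C) (hP' : P' ∉ C)
    (hadd : P + P' ∉ C) (hne : Xv C P ≠ Xv C P') :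
    ∃ a b c : K, a ≠ 0 ∧ a * Gv C P + b * Xv C P + c = 0 ∧ a * Gv C P' + b * Xv C P' + c = 0 ∧
      a * Gv C (-(P + P')) + b * Xv C (-(P + P')) + c = 0 := by
  classical
  rcases P with - | ⟨x₁, y₁, h₁⟩
  · exact absurd (zero_mem C) hP
  rcases P' with - | ⟨x₂, y₂, h₂⟩
  · exact absurd (zero_mem C) hP'
  have hx : x₁ ≠ x₂ := fun hx => by
    rcases (Affine.Point.X_eq_iff (h₁ := h₁) (h₂ := h₂)).mp hx with h | h <;> rw [h] at hne
    · exact hne rfl
    · exact hne (Xv_neg C _)
  set lam := W.slope x₁ x₂ y₁ y₂ with hlam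
  set f : W.Point → FF W := fun Q => lineFn (cst W lam) (cst W x₁) (cst W y₁) (P₀ + ι Q) with hf
  set z : FF W := ∏ Q ∈ Cf C, f Q with hz
  have hval : ∀ (V : ValuationSubring (FF W)), IsPlace V → ∀ A : W.Point, Red V P₀ A →
      ∀ Q, A + Q ≠ 0 → Eqv V (f Q) (lineFn lam x₁ y₁ (A + Q)) := by
    intro V hV A hA Q h0
    have hr := red_add_ι hV hA Q
    exact ((hr.eqv_yc h0).sub ((Eqv.cst lam).mul hV (hr.eqv_xc h0))).sub
      ((Eqv.cst y₁).sub ((Eqv.cst lam).mul hV (Eqv.cst x₁)))
  have hinv : IsInv C z := by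
    refine ⟨fun R hR => ?_, fun V A hV hA hC => prod_mem fun Q hQ =>
      (hval V hV A hA Q (xc_neg_mem C hC ((mem_Cf C).mp hQ))).mem hV⟩
    rw [hz, map_prod]
    refine Finset.prod_nbij' (· + R) (· - R)
      (fun Q hQ => (mem_Cf C).mpr (add_mem ((mem_Cf C).mp hQ) hR))
      (fun Q hQ => (mem_Cf C).mpr (sub_mem ((mem_Cf C).mp hQ) hR))
      (fun Q _ => add_sub_cancel_right Q R) (fun Q _ => sub_add_cancel Q R) (fun Q _ => ?_)
    simp only [hf, lineFn, map_sub, map_mul, ← xc_pmap, ← yc_pmap, map_add, pmap_τ_P₀, pmap_ι,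
      AlgHom.commutes]
    simp only [add_comm, add_left_comm]
  set α : K := ∏ Q ∈ Cs C, lineFn lam x₁ y₁ Q with hα
  have hα0 : α ≠ 0 := by
    rw [hα, Finset.prod_ne_zero_iff]
    intro Q hQ h0
    rw [mem_Cs] at hQ
    rcases eq_of_lineFn_eq_zero h₁ h₂ hx hQ.1 h0 with h | h | h
    · exact hP (h ▸ hQ.2)
    · exact hP' (h ▸ hQ.2)
    · exact hadd (neg_neg (Affine.Point.some _ _ h₁ + Affine.Point.some _ _ h₂ : W.Point) ▸
        neg_mem (h ▸ hQ.2))
  have hinf : AtInf (z * unif ^ 3) α := by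
    intro V hV h
    have h0 : Eqv V (f 0 * unif ^ 3) 1 := by
      simp only [hf, lineFn, map_zero, add_zero]
      convert ((eqv_gy_unif hV h).sub ((((Eqv.cst lam).mul hV (eqv_gx_unif hV h)).mul hV
        (eqv_unif hV h)))).sub (((Eqv.cst y₁).sub ((Eqv.cst lam).mul hV (Eqv.cst x₁))).mul hV
          ((eqv_unif hV h).pow hV 3)) using 1
      · rw [show xc (P₀ : (WF W).Point) = gx W from rfl,
          show yc (P₀ : (WF W).Point) = gy W from rfl]
        ring
      · ring
    have h1 : Eqv V (∏ Q ∈ Cs C, f Q) α := Eqv.prod hV _ fun Q hQ => by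
      simpa using hval V hV 0 h Q (by simpa using ((mem_Cs C).mp hQ).1)
    convert h0.mul hV h1 using 1
    · rw [hz, ← Finset.mul_prod_erase _ f ((mem_Cf C).mpr (zero_mem C)), Cs]; ring
    · rw [one_mul]
  obtain ⟨b, c, hbc⟩ := exists_combination hodd hinv hinf
  have hzero : ∀ A : W.Point, A ∉ C → lineFn lam x₁ y₁ A = 0 →
      α / 2 * Gv C A + b * Xv C A + c = 0 := by
    intro A hA hl
    obtain ⟨V, hV, h⟩ := exists_place_at A
    have h1 : Eqv V z (∏ Q ∈ Cf C, lineFn lam x₁ y₁ (A + Q)) :=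
      Eqv.prod hV _ fun Q hQ => hval V hV A h Q (xc_neg_mem C hA ((mem_Cf C).mp hQ))
    rw [Finset.prod_eq_zero ((mem_Cf C).mpr (zero_mem C)) (by rw [add_zero]; exact hl), hbc] at h1
    exact ((((Eqv.cst _).mul hV (eqv_Gfun hV h hA)).add ((Eqv.cst b).mul hV
      (eqv_Xfun hV h hA))).add (Eqv.cst c)).unique hV h1
  refine ⟨α / 2, b, c, div_ne_zero hα0 two_ne_zero,
    hzero _ hP (by simp [lineFn, xc_some, yc_some]),
    hzero _ hP' ?_, hzero _ (fun h => hadd (neg_neg (Affine.Point.some _ _ h₁ +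
      Affine.Point.some _ _ h₂ : W.Point) ▸ neg_mem h)) ?_⟩
  · simp only [lineFn, xc_some, yc_some, hlam, Affine.slope_of_X_ne hx]
    have := sub_ne_zero.mpr hx
    field_simp
    ring
  · rw [Affine.Point.add_of_X_ne hx, Affine.Point.neg_some]
    simp only [lineFn, xc_some, yc_some, Affine.addY, Affine.negY_negY, Affine.negAddY, ← hlam]
    ring

lemma equation_veluPoint {P : W.Point} (hP : P ∉ C) :
    (veluCurve C).Equation (Xv C P) ((Gv C P - W.a₁ * Xv C P - W.a₃) / 2) := by
  have h := Gv_sq (C := C) hP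
  simp only [FV, eval_add, eval_mul, eval_pow, eval_C, eval_X, WeierstrassCurve.b₂,
    WeierstrassCurve.b₄, WeierstrassCurve.b₆] at h
  rw [Affine.equation_iff]
  simp only [veluCurve, WeierstrassCurve.b₂]
  field_simp
  linear_combination h

/-- Vélu's coordinates give a nonsingular point of the quotient curve. -/
lemma nonsingular_veluPoint (hodd : Odd (Nat.card C)) {P : W.Point} (hP : P ∉ C) :
    (veluCurve C).Nonsingular (Xv C P) ((Gv C P - W.a₁ * Xv C P - W.a₃) / 2) :=
  ((veluCurve C).equation_iff_nonsingular_of_Δ_ne_zero (veluCurve_Δ_ne_zero hodd)).mp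
    (equation_veluPoint hP)

open scoped Classical in
/-- Vélu's map on points. -/
noncomputable def veluMap (hodd : Odd (Nat.card C)) (P : W.Point) : (veluCurve C).Point :=
  if hP : P ∈ C then 0 else .some _ _ (nonsingular_veluPoint hodd hP)

variable (hodd : Odd (Nat.card C))

lemma veluMap_of_mem {P : W.Point} (hP : P ∈ C) : veluMap hodd P = 0 := dif_pos hP

/-- Vélu's map outside the subgroup. -/
lemma veluMap_of_notMem {P : W.Point} (hP : P ∉ C) :
    veluMap hodd P = .some _ _ (nonsingular_veluPoint hodd hP) := dif_neg hP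

lemma veluMap_add_mem {P Q : W.Point} (hQ : Q ∈ C) : veluMap hodd (P + Q) = veluMap hodd P := by
  by_cases hP : P ∈ C
  · rw [veluMap_of_mem hodd hP, veluMap_of_mem hodd (add_mem hP hQ)]
  · have hPQ : P + Q ∉ C := fun h => hP (by simpa using sub_mem h hQ)
    rw [veluMap_of_notMem hodd hP, veluMap_of_notMem hodd hPQ]
    simp only [Xv_add C hQ, Gv_add C hQ]

lemma veluMap_neg (P : W.Point) : veluMap hodd (-P) = -veluMap hodd P := by
  by_cases hP : P ∈ C
  · rw [veluMap_of_mem hodd hP, veluMap_of_mem hodd (neg_mem hP), neg_zero]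
  · rw [veluMap_of_notMem hodd hP, veluMap_of_notMem hodd (mt neg_mem_iff.mp hP),
      Affine.Point.neg_some]
    simp only [Affine.Point.some.injEq, Xv_neg, Gv_neg, true_and, Affine.negY, veluCurve_a₁,
      veluCurve_a₃]
    field_simp
    ring

lemma veluMap_add_of_distinct {P Q : W.Point} (hP : P ∉ C) (hQ : Q ∉ C) (hadd : P + Q ∉ C)
    (h12 : Xv C P ≠ Xv C Q) (h13 : Xv C P ≠ Xv C (P + Q)) (h23 : Xv C Q ≠ Xv C (P + Q)) :
    veluMap hodd (P + Q) = veluMap hodd P + veluMap hodd Q := by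
  obtain ⟨a, b, c, ha, e1, e2, e3⟩ := exists_line hodd hP hQ hadd h12
  have hadd' : -(P + Q) ∉ C := mt neg_mem_iff.mp hadd
  rw [veluMap_of_notMem hodd hP, veluMap_of_notMem hodd hQ,
    add_eq_neg_of_collinear _ _ (nonsingular_veluPoint hodd hadd') h12
      (by rwa [Xv_neg]) (by rwa [Xv_neg]) (m := (-b / a - W.a₁) / 2)
      (k := (-c / a - W.a₃) / 2) ?_ ?_ ?_, ← veluMap_of_notMem hodd hadd', veluMap_neg, neg_neg]
  all_goals field_simp
  · linear_combination e1
  · linear_combination e2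
  · linear_combination e3

lemma finite_setOf_Xv_eq (e : K) : {P : W.Point | P ∉ C ∧ Xv C P = e}.Finite := by
  refine (finite_zeros (W := W) (z := Xfun C - cst W e) ?_).subset ?_
  · intro h0
    obtain ⟨V, hV, h⟩ := exists_place_infinity (W := W)
    have h1 := eqv_Xfun_unif C hV h
    rw [sub_eq_zero.mp h0] at h1
    have := (((Eqv.cst e).mul hV ((eqv_unif hV h).pow hV 2))).unique hV h1
    simp at this
  · rintro P ⟨hP, hX⟩
    obtain ⟨V, hV, h⟩ := exists_place_at P
    exact ⟨V, hV, h, hX ▸ eqv_Xfun hV h hP⟩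

lemma finite_setOf_Xv_add_eq {Q : W.Point} (hQ : Q ∉ C) :
    {P : W.Point | P ∉ C ∧ P + Q ∉ C ∧ Xv C P = Xv C (P + Q)}.Finite := by
  have hτ : ∀ (V : ValuationSubring (FF W)), IsPlace V → ∀ A : W.Point, Red V P₀ A →
      A + Q ∉ C → Eqv V (τ Q (Xfun C)) (Xv C (A + Q)) := fun V hV A hA hAQ =>
    eqv_comap.mp (eqv_Xfun (hV.comap Q)
      (red_comap.mpr (by rw [pmap_τ_P₀]; exact red_add_ι hV hA Q)) hAQ)
  refine (finite_zeros (W := W) (z := Xfun C - τ Q (Xfun C)) ?_).subset ?_
  · intro h0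
    obtain ⟨V, hV, h⟩ := exists_place_infinity (W := W)
    have h1 := eqv_Xfun_unif C hV h
    rw [sub_eq_zero.mp h0] at h1
    have := ((hτ V hV 0 h (by rwa [zero_add])).mul hV ((eqv_unif hV h).pow hV 2)).unique hV h1
    simp at this
  · rintro P ⟨hP, hPQ, hX⟩
    obtain ⟨V, hV, h⟩ := exists_place_at P
    refine ⟨V, hV, h, eqv_zero_iff.mp ?_⟩
    simpa [hX] using (eqv_Xfun hV h hP).sub (hτ V hV P h hPQ)

/-- For fixed `Q`, additivity holds outside a finite set. -/
lemma finite_setOf_not_add (Q : W.Point) :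
    {P : W.Point | veluMap hodd (P + Q) ≠ veluMap hodd P + veluMap hodd Q}.Finite := by
  by_cases hQ : Q ∈ C
  · convert Set.finite_empty
    ext P
    simp [veluMap_add_mem hodd hQ, veluMap_of_mem hodd hQ]
  have hC : (C : Set W.Point).Finite := Set.toFinite _
  have hinj : Function.Injective (· + Q : W.Point → W.Point) := add_left_injective Q
  refine ((((hC.union (hC.preimage hinj.injOn)).union (finite_setOf_Xv_eq (C := C) (Xv C Q))).union
    ((finite_setOf_Xv_eq (C := C) (Xv C Q)).preimage hinj.injOn)).union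
      (finite_setOf_Xv_add_eq hQ)).subset ?_
  intro P hne
  by_contra hmem
  simp only [Set.mem_union, SetLike.mem_coe, Set.mem_preimage, Set.mem_ofPred_eq, not_or,
    not_and] at hmem
  obtain ⟨⟨⟨⟨hP, hPQ⟩, h12⟩, h23⟩, h13⟩ := hmem
  exact hne (veluMap_add_of_distinct hodd hP hQ hPQ (h12 hP) (h13 hP hPQ)
    (Ne.symm (h23 hPQ)))

/-- Vélu's map is additive. -/
theorem veluMap_add (P Q : W.Point) :
    veluMap hodd (P + Q) = veluMap hodd P + veluMap hodd Q := by
  have hinj : Function.Injective (· + Q : W.Point → W.Point) := add_left_injective Q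
  obtain ⟨R, hR⟩ := ((((finite_setOf_not_add hodd (P + Q))).union
    ((finite_setOf_not_add hodd P).preimage hinj.injOn)).union
      (finite_setOf_not_add hodd Q)).infinite_compl.nonempty
  simp only [Set.mem_compl_iff, Set.mem_union, Set.mem_preimage, Set.mem_ofPred_eq, not_or,
    not_not] at hR
  obtain ⟨⟨h1, h2⟩, h3⟩ := hR
  rw [show R + Q + P = R + (P + Q) by abel, h1, h3] at h2
  exact add_left_cancel (a := veluMap hodd R) (h2.trans (by abel))

/-- Vélu's isogeny as a homomorphism on points. -/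
noncomputable def veluHom : W.Point →+ (veluCurve C).Point :=
  AddMonoidHom.mk' (veluMap hodd) (veluMap_add hodd)

/-- `veluHom` is `veluMap` as a function. -/
lemma veluHom_apply (P : W.Point) : veluHom hodd P = veluMap hodd P := rfl

/-- The kernel of Vélu's isogeny is `C`. -/
theorem veluHom_eq_zero_iff {P : W.Point} : veluHom hodd P = 0 ↔ P ∈ C := by
  refine ⟨fun h => ?_, veluMap_of_mem hodd⟩
  by_contra hP
  rw [veluHom_apply, veluMap_of_notMem hodd hP] at h
  exact Affine.Point.some_ne_zero _ h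

end Fermat.Agent.Isogeny
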