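import Mathlib.AlgebraicGeometry.EllipticCurve.Affine.Point
import Mathlib.RingTheory.Valuation.LocalSubring
import Mathlib.FieldTheory.IsAlgClosed.Basic

/-!
# The function field of a Weierstrass curve

For an affine Weierstrass curve `W` over a field `K` we set up the coordinate functions `gx`, `gy`
of `W.FunctionField`, show that every function can be written as `(p + q y) / D` with polynomials
`p`, `q`, `D` in `x`, that algebraic functions are constant when `K` is algebraically closed, and
construct the embedding of the function field attached to a solution with transcendental abscissa.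
-/

set_option autoImplicit false

open WeierstrassCurve Polynomial
open scoped Polynomial.Bivariate WeierstrassCurve.Affine

namespace Fermat.Agent.Isogeny

universe u

variable {K : Type u} [Field K] (W : Affine K)

/-- The function field of `W`. -/
noncomputable abbrev FF : Type u := W.FunctionField

noncomputable instance instDecEqFF : DecidableEq (FF W) := Classical.decEq _

/-- `W` over its function field. -/
noncomputable abbrev WF : Affine (FF W) := W⁄(FF W)

/-- Constants in the function field. -/
noncomputable abbrev cst : K →+* FF W := algebraMap K (FF W)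

/-- The function `x`. -/
noncomputable def gx : FF W :=
  algebraMap W.CoordinateRing (FF W) (Affine.CoordinateRing.mk W (C X))

/-- The function `y`. -/
noncomputable def gy : FF W :=
  algebraMap W.CoordinateRing (FF W) (Affine.CoordinateRing.mk W Y)

/-- A polynomial in the function `x`. -/
noncomputable def px (p : K[X]) : FF W := aeval (gx W) p

lemma px_eq (p : K[X]) :
    px W p = algebraMap W.CoordinateRing (FF W) (Affine.CoordinateRing.mk W (C p)) := by
  let f : K[X] →ₐ[K] FF W := AlgHom.mk
    ((algebraMap W.CoordinateRing (FF W)).comp ((Affine.CoordinateRing.mk W).comp C))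
    (fun c => by
      rw [IsScalarTower.algebraMap_apply K W.CoordinateRing (FF W)]
      rfl)
  have : aeval (gx W) = f := Polynomial.algHom_ext (by rw [aeval_X]; rfl)
  exact congr($this p)

lemma algebraMap_smul_basis (p q : K[X]) :
    algebraMap W.CoordinateRing (FF W) (p • 1 + q • Affine.CoordinateRing.mk W Y) =
      px W p + px W q * gy W := by
  simp only [Affine.CoordinateRing.smul, map_add, map_mul, mul_one, px_eq, gy]

/-- `1` and `y` are linearly independent over the polynomials in `x`. -/
lemma px_add_mul_eq_zero {p q : K[X]} (h : px W p + px W q * gy W = 0) : p = 0 ∧ q = 0 := by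
  rw [← algebraMap_smul_basis] at h
  exact Affine.CoordinateRing.smul_basis_eq_zero
    ((map_eq_zero_iff _ (IsFractionRing.injective W.CoordinateRing (FF W))).mp h)

/-- `x` is transcendental. -/
lemma px_eq_zero {p : K[X]} : px W p = 0 ↔ p = 0 := by
  refine ⟨fun h => (px_add_mul_eq_zero W (q := 0) (by rw [h]; simp [px])).1, ?_⟩
  rintro rfl
  simp [px]

/-- The function `x` is not constant. -/
lemma gx_ne_cst (c : K) : gx W ≠ cst W c := by
  intro h
  have := (px_eq_zero W (p := X - C c)).mp (by simp [px, h])
  exact X_sub_C_ne_zero c this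

/-- The functions `x`, `y` satisfy the equation of the curve. -/
lemma equation_gxy : (WF W).Equation (gx W) (gy W) := by
  have h : algebraMap W.CoordinateRing (FF W) (Affine.CoordinateRing.mk W
      (Y ^ 2 + C (C W.a₁ * X + C W.a₃) * Y
        - C (X ^ 3 + C W.a₂ * X ^ 2 + C W.a₄ * X + C W.a₆))) = 0 :=
    (congr_arg _ (AdjoinRoot.mk_self (f := W.polynomial))).trans (map_zero _)
  rw [map_sub, map_sub, map_add (Affine.CoordinateRing.mk W),
    map_add (algebraMap W.CoordinateRing (FF W)), map_mul (Affine.CoordinateRing.mk W),
    map_mul (algebraMap W.CoordinateRing (FF W)), map_pow (Affine.CoordinateRing.mk W),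
    map_pow (algebraMap W.CoordinateRing (FF W)), ← px_eq, ← px_eq] at h
  change gy W ^ 2 + px W _ * gy W - px W _ = 0 at h
  rw [Affine.equation_iff]
  simp only [WeierstrassCurve.baseChange, map_a₁, map_a₂, map_a₃, map_a₄, map_a₆]
  simp only [px, map_add, map_mul, map_pow, aeval_X, aeval_C] at h
  linear_combination h

/-- The product of `p + q y` with its conjugate. -/
noncomputable def normPoly (p q : K[X]) : K[X] :=
  p ^ 2 - p * q * (C W.a₁ * X + C W.a₃) - q ^ 2 * (X ^ 3 + C W.a₂ * X ^ 2 + C W.a₄ * X + C W.a₆)

/-- `p + q y` times its conjugate is a polynomial in `x`. -/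
lemma mul_conj (p q : K[X]) :
    (px W p + px W q * gy W) * (px W (p - q * (C W.a₁ * X + C W.a₃)) - px W q * gy W) =
      px W (normPoly W p q) := by
  have he := (Affine.equation_iff ..).mp (equation_gxy W)
  simp only [WeierstrassCurve.baseChange, map_a₁, map_a₂, map_a₃, map_a₄,
    map_a₆] at he
  simp only [px, normPoly, map_sub, map_add, map_mul, map_pow, aeval_X, aeval_C]
  linear_combination (-(aeval (gx W) q) ^ 2) * he

/-- A nonzero function `p + q y` has nonzero norm. -/
lemma normPoly_ne_zero {p q : K[X]} (h : px W p + px W q * gy W ≠ 0) : normPoly W p q ≠ 0 := by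
  intro h0
  have h1 := mul_conj W p q
  rw [h0, (px_eq_zero W).mpr rfl, mul_eq_zero, or_iff_right h] at h1
  have h2 := px_add_mul_eq_zero W (p := p - q * (C W.a₁ * X + C W.a₃)) (q := -q)
    (by rw [← h1]; simp [px]; ring)
  obtain ⟨h3, h4⟩ := h2
  rw [neg_eq_zero] at h4
  simp only [h4, zero_mul, sub_zero] at h3
  simp [h3, h4, px] at h

/-- Every function is `(p + q y)/D`. -/
lemma exists_repr (z : FF W) :
    ∃ p q D : K[X], D ≠ 0 ∧ z * px W D = px W p + px W q * gy W := by
  obtain ⟨n, d, hd, hz⟩ := IsFractionRing.div_surjective (A := W.CoordinateRing) z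
  obtain ⟨a, b, rfl⟩ := Affine.CoordinateRing.exists_smul_basis_eq n
  obtain ⟨c, e, rfl⟩ := Affine.CoordinateRing.exists_smul_basis_eq d
  have hd' : px W c + px W e * gy W ≠ 0 := by
    rw [← algebraMap_smul_basis]
    exact fun h => nonZeroDivisors.ne_zero hd
      ((map_eq_zero_iff _ (IsFractionRing.injective W.CoordinateRing (FF W))).mp h)
  rw [algebraMap_smul_basis, algebraMap_smul_basis, div_eq_iff hd'] at hz
  set s : K[X] := c - e * (C W.a₁ * X + C W.a₃) with hs
  set f : K[X] := X ^ 3 + C W.a₂ * X ^ 2 + C W.a₄ * X + C W.a₆ with hf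
  refine ⟨a * s - b * e * f, b * s - a * e + b * e * (C W.a₁ * X + C W.a₃), normPoly W c e,
    normPoly_ne_zero W hd', ?_⟩
  have he := (Affine.equation_iff ..).mp (equation_gxy W)
  simp only [WeierstrassCurve.baseChange, map_a₁, map_a₂, map_a₃, map_a₄,
    map_a₆] at he
  rw [← mul_conj, ← mul_assoc, ← hz, ← hs]
  simp only [px, hf, map_sub, map_add, map_mul, map_pow, aeval_X, aeval_C]
  linear_combination (-(aeval (gx W) b * aeval (gx W) e)) * he

/-- A function algebraic over the constants is constant. -/
lemma exists_cst_of_isAlgebraic [IsAlgClosed K] {z : FF W} (h : IsAlgebraic K z) :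
    ∃ c : K, cst W c = z := by
  have hi : IsIntegral K z := h.isIntegral
  obtain ⟨c, hc⟩ := IsAlgClosed.exists_root _ (minpoly.degree_pos hi).ne'
  have h1 : minpoly K z = X - C c :=
    eq_of_monic_of_associated (minpoly.monic hi) (monic_X_sub_C c)
      ((irreducible_X_sub_C c).associated_of_dvd (minpoly.irreducible hi)
        (dvd_iff_isRoot.mpr hc)).symm
  have h2 := minpoly.aeval K z
  rw [h1, map_sub, aeval_X, aeval_C, sub_eq_zero] at h2
  exact ⟨c, h2.symm⟩

section embOfPoint

variable {W} {L : Type*} [Field L] [Algebra K L] {x' y' : L}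

lemma eval₂_polynomial_eq_zero (h : (W⁄L).Equation x' y') :
    eval₂ (aeval x').toRingHom y' W.polynomial = 0 := by
  have he := (Affine.equation_iff ..).mp h
  simp only [WeierstrassCurve.baseChange, map_a₁, map_a₂, map_a₃, map_a₄, map_a₆] at he
  simp only [Affine.polynomial, eval₂_sub, eval₂_add, eval₂_mul, eval₂_pow, eval₂_X, eval₂_C,
    AlgHom.toRingHom_eq_coe, RingHom.coe_coe, map_add, map_mul, map_pow, aeval_X, aeval_C]
  linear_combination he

/-- The map from the coordinate ring given by a solution of the equation. -/
noncomputable def crHom (h : (W⁄L).Equation x' y') : W.CoordinateRing →ₐ[K] L where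
  toRingHom := AdjoinRoot.lift ((aeval x').toRingHom) y' (eval₂_polynomial_eq_zero h)
  commutes' c := (AdjoinRoot.lift_of _ (x := C c)).trans (aeval_C x' c)

lemma crHom_smul_basis (h : (W⁄L).Equation x' y') (p q : K[X]) :
    crHom h (p • 1 + q • Affine.CoordinateRing.mk W Y) = aeval x' p + aeval x' q * y' := by
  simp only [Affine.CoordinateRing.smul, mul_one, map_add, map_mul]
  exact congr_arg₂ (· + ·) (AdjoinRoot.lift_of (eval₂_polynomial_eq_zero h))
    (congr_arg₂ (· * ·) (AdjoinRoot.lift_of (eval₂_polynomial_eq_zero h))
      (AdjoinRoot.lift_root (eval₂_polynomial_eq_zero h)))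

lemma crHom_injective (h : (W⁄L).Equation x' y') (ht : Transcendental K x') :
    Function.Injective (crHom h) := by
  rw [injective_iff_map_eq_zero]
  intro z hz
  obtain ⟨p, q, rfl⟩ := Affine.CoordinateRing.exists_smul_basis_eq z
  by_contra hne
  have hne' : px W p + px W q * gy W ≠ 0 := by
    rw [← algebraMap_smul_basis]
    exact fun h' => hne ((map_eq_zero_iff _
      (IsFractionRing.injective W.CoordinateRing (FF W))).mp h')
  rw [crHom_smul_basis] at hz
  refine normPoly_ne_zero W hne' (transcendental_iff.mp ht _ ?_)
  have he := (Affine.equation_iff ..).mp h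
  simp only [WeierstrassCurve.baseChange, map_a₁, map_a₂, map_a₃, map_a₄,
    map_a₆] at he
  simp only [normPoly, map_sub, map_add, map_mul, map_pow, aeval_X, aeval_C]
  linear_combination (aeval x' p - aeval x' q * (algebraMap K L W.a₁ * x' + algebraMap K L W.a₃)
    - aeval x' q * y') * hz + (aeval x' q) ^ 2 * he

/-- The embedding of the function field given by a solution with transcendental abscissa. -/
noncomputable def ffHom (h : (W⁄L).Equation x' y') (ht : Transcendental K x') : FF W →ₐ[K] L :=
  IsFractionRing.liftAlgHom (g := crHom h) (crHom_injective h ht)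

/-- `ffHom` sends `x` to the given abscissa. -/
lemma ffHom_gx (h : (W⁄L).Equation x' y') (ht : Transcendental K x') :
    ffHom h ht (gx W) = x' := by
  rw [gx, ffHom, IsFractionRing.liftAlgHom_apply, IsFractionRing.lift_algebraMap]
  exact (AdjoinRoot.lift_of (eval₂_polynomial_eq_zero h)).trans (aeval_X x')

/-- `ffHom` sends `y` to the given ordinate. -/
lemma ffHom_gy (h : (W⁄L).Equation x' y') (ht : Transcendental K x') :
    ffHom h ht (gy W) = y' := by
  rw [gy, ffHom, IsFractionRing.liftAlgHom_apply, IsFractionRing.lift_algebraMap]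
  exact AdjoinRoot.lift_root (eval₂_polynomial_eq_zero h)

end embOfPoint

variable {W}

/-- A homomorphism out of the function field is determined by the images of `x` and `y`. -/
lemma algHom_ext {L : Type*} [Field L] [Algebra K L] {f g : FF W →ₐ[K] L}
    (hx : f (gx W) = g (gx W)) (hy : f (gy W) = g (gy W)) : f = g := by
  refine AlgHom.ext fun z => ?_
  obtain ⟨p, q, D, hD, hz⟩ := exists_repr W z
  have h1 := congr_arg f hz
  have h2 := congr_arg g hz
  simp only [map_mul, map_add, px, ← aeval_algHom_apply] at h1 h2
  rw [hx, hy, ← h2] at h1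
  refine mul_right_cancel₀ ?_ h1
  rw [aeval_algHom_apply, ← map_zero g]
  exact fun h => (px_eq_zero W).not.mpr hD (g.injective h)

end Fermat.Agent.Isogeny
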