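import Fermat.Agent.Isogeny.Generic

/-!
# Vélu's formulas

For a finite subgroup `C` of the points of a Weierstrass curve we define Vélu's quotient curve
`veluCurve C` and the functions `Xfun C`, `Gfun C` (abscissa and `2 y + a₁ x + a₃` of the image of
the generic point), and prove that they satisfy the equation of the quotient curve, in
characteristic different from two.
-/

set_option autoImplicit false

open WeierstrassCurve Polynomial
open scoped Polynomial.Bivariate WeierstrassCurve.Affine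

namespace Fermat.Agent.Isogeny

/-- The abscissa of an affine point. -/
lemma xc_some {R : Type*} [CommRing R] {E : Affine R} {x y : R} (h : E.Nonsingular x y) :
    xc (.some x y h) = x := rfl

/-- The ordinate of an affine point. -/
lemma yc_some {R : Type*} [CommRing R] {E : Affine R} {x y : R} (h : E.Nonsingular x y) :
    yc (.some x y h) = y := rfl

/-- `2 y + a₁ x + a₃` of an affine point. -/
lemma gc_some {R : Type*} [CommRing R] {E : Affine R} {x y : R} (h : E.Nonsingular x y) :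
    gc (.some x y h) = 2 * y + E.a₁ * x + E.a₃ := rfl

section PairSums

variable {F : Type*} [Field F] {E : Affine F}

/-- The completed-square form of the Weierstrass equation. -/
lemma gc_sq {x y : F} (h : E.Nonsingular x y) :
    (2 * y + E.a₁ * x + E.a₃) ^ 2 = 4 * x ^ 3 + E.b₂ * x ^ 2 + 2 * E.b₄ * x + E.b₆ := by
  have := (Affine.equation_iff ..).mp h.1
  simp only [WeierstrassCurve.b₂, WeierstrassCurve.b₄, WeierstrassCurve.b₆]
  linear_combination 4 * this

lemma inv_expansion {x r t q : F} (hx : x ≠ 0) (hd : x - r ≠ 0) :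
    -(t / (x - r) ^ 2 + 2 * q / (x - r) ^ 3) = -(t * x⁻¹ ^ 2) - (2 * t * r + 2 * q) * x⁻¹ ^ 3
      + x⁻¹ ^ 4 * (-(t * (3 * r ^ 2 - 2 * r ^ 3 * x⁻¹)) / (1 - r * x⁻¹) ^ 2
        - 2 * q * (3 * r - 3 * r ^ 2 * x⁻¹ + r ^ 3 * x⁻¹ ^ 2) / (1 - r * x⁻¹) ^ 3) := by
  have h1 : 1 - r * x⁻¹ = (x - r) * x⁻¹ := by field_simp
  rw [h1]
  field_simp
  ring

variable [DecidableEq F]

/-- The abscissas of `P + Q` and `P - Q` add up to Vélu's rational function. -/
lemma xc_add_add_xc_sub {x y r s : F} (hP : E.Nonsingular x y) (hQ : E.Nonsingular r s)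
    (hne : x ≠ r) :
    xc (.some x y hP + .some r s hQ) + xc (.some x y hP + -.some r s hQ) - 2 * r =
      (6 * r ^ 2 + E.b₂ * r + E.b₄) / (x - r) + (2 * s + E.a₁ * r + E.a₃) ^ 2 / (x - r) ^ 2 := by
  have hd : x - r ≠ 0 := sub_ne_zero.mpr hne
  have e1 := (Affine.equation_iff ..).mp hP.1
  have e2 := (Affine.equation_iff ..).mp hQ.1
  rw [Affine.Point.neg_some, Affine.Point.add_of_X_ne hne, Affine.Point.add_of_X_ne hne]
  simp only [xc, Affine.addX, Affine.slope_of_X_ne hne, Affine.negY, WeierstrassCurve.b₂,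
    WeierstrassCurve.b₄]
  field_simp
  linear_combination 2 * e1 - 2 * e2

/-- The values of `2 y + a₁ x + a₃` at `P + Q` and `P - Q` add up to Vélu's rational function. -/
lemma gc_add_add_gc_sub (h2 : (2 : F) ≠ 0) {x y r s : F} (hP : E.Nonsingular x y)
    (hQ : E.Nonsingular r s) (hne : x ≠ r) :
    gc (.some x y hP + .some r s hQ) + gc (.some x y hP + -.some r s hQ) =
      -(2 * y + E.a₁ * x + E.a₃) * ((6 * r ^ 2 + E.b₂ * r + E.b₄) / (x - r) ^ 2
        + 2 * (2 * s + E.a₁ * r + E.a₃) ^ 2 / (x - r) ^ 3) := by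
  have hd : x - r ≠ 0 := sub_ne_zero.mpr hne
  have e1 := gc_sq hP
  have e2 := gc_sq hQ
  rw [Affine.Point.neg_some, Affine.Point.add_of_X_ne hne, Affine.Point.add_of_X_ne hne]
  simp only [gc, Affine.addY, Affine.negAddY, Affine.addX, Affine.slope_of_X_ne hne, Affine.negY]
  generalize hg : 2 * y + E.a₁ * x + E.a₃ = g at e1 ⊢
  generalize hq : 2 * s + E.a₁ * r + E.a₃ = q at e2 ⊢
  obtain rfl : y = (g - E.a₁ * x - E.a₃) / 2 := by rw [← hg]; field_simp; ring
  obtain rfl : s = (q - E.a₁ * r - E.a₃) / 2 := by rw [← hq]; field_simp; ring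
  simp only [WeierstrassCurve.b₂, WeierstrassCurve.b₄, WeierstrassCurve.b₆] at e1 e2 ⊢
  field_simp
  linear_combination (-2 * g) * e1 + 2 * g * e2

end PairSums

universe u

variable {K : Type u} [Field K] {W : Affine K}

lemma two_ne_FF [NeZero (2 : K)] : (2 : FF W) ≠ 0 := by
  rw [← map_ofNat (cst W), Ne, map_eq_zero]; exact two_ne_zero

/-- The function `x` is nonzero. -/
lemma gx_ne_zero : gx W ≠ 0 := fun h => gx_ne_cst W 0 (by simp [h])

section GenericPoint

variable [W.IsElliptic]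

/-- The function `2 y + a₁ x + a₃`. -/
noncomputable def gg : FF W := gc (P₀ : (WF W).Point)

/-- `gg` is `2 y + a₁ x + a₃`. -/
lemma gg_eq : gg (W := W) = 2 * gy W + cst W W.a₁ * gx W + cst W W.a₃ := rfl

lemma gg_sq : gg (W := W) ^ 2 =
    4 * gx W ^ 3 + cst W W.b₂ * gx W ^ 2 + 2 * cst W W.b₄ * gx W + cst W W.b₆ := by
  have := gc_sq (E := WF W) nonsingular_gxy
  simpa [gg, P₀, gc, WeierstrassCurve.baseChange] using this

/-- `1 / x` vanishes at infinity. -/
lemma eqv_inv_gx {V : ValuationSubring (FF W)} (h : Red V P₀ (0 : W.Point)) :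
    Eqv V (gx W)⁻¹ 0 :=
  eqv_zero_iff.mpr (inv_mem_nonunits_of_notMem h)

lemma eqv_one_sub {V : ValuationSubring (FF W)} (hV : IsPlace V) (h : Red V P₀ (0 : W.Point))
    (r : K) : Eqv V (1 - cst W r * (gx W)⁻¹) 1 := by
  convert (Eqv.cst (V := V) (1 : K)).sub ((Eqv.cst r).mul hV (eqv_inv_gx h)) using 1
  · rw [map_one]
  · ring

end GenericPoint

variable [DecidableEq K] (C : AddSubgroup W.Point) [Finite C]

/-- The subgroup as a finset. -/
noncomputable def Cf : Finset W.Point := (Set.toFinite (C : Set W.Point)).toFinset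

/-- Membership in the finset of the subgroup. -/
lemma mem_Cf {Q : W.Point} : Q ∈ Cf C ↔ Q ∈ C := by simp [Cf]

/-- The finset of the subgroup has the cardinality of the subgroup. -/
lemma card_Cf : (Cf C).card = Nat.card C := by
  rw [Cf, ← Set.ncard_eq_toFinset_card _ (Set.toFinite _)]
  rfl

/-- The nonzero elements of the subgroup. -/
noncomputable def Cs : Finset W.Point := (Cf C).erase 0

/-- Membership in the nonzero part of the subgroup. -/
lemma mem_Cs {Q : W.Point} : Q ∈ Cs C ↔ Q ≠ 0 ∧ Q ∈ C := by simp [Cs, mem_Cf]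

/-- Vélu's `t_Q` (with both `Q` and `-Q` counted). -/
def tq (Q : W.Point) : K := 6 * xc Q ^ 2 + W.b₂ * xc Q + W.b₄

/-- Vélu's `u_Q`. -/
def uq (Q : W.Point) : K := gc Q ^ 2

/-- Vélu's `t`. -/
noncomputable def tV : K := (∑ Q ∈ Cs C, tq Q) / 2

/-- Vélu's `w`. -/
noncomputable def wV : K := (∑ Q ∈ Cs C, (xc Q * tq Q + uq Q)) / 2

/-- Vélu's quotient curve. -/
noncomputable def veluCurve : Affine K :=
  ⟨W.a₁, W.a₂, W.a₃, W.a₄ - 5 * tV C, W.a₆ - W.b₂ * tV C - 7 * wV C⟩

/-- The quotient curve has the same `a₁`. -/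
@[simp] lemma veluCurve_a₁ : (veluCurve C).a₁ = W.a₁ := rfl
@[simp] lemma veluCurve_a₂ : (veluCurve C).a₂ = W.a₂ := rfl
@[simp] lemma veluCurve_a₃ : (veluCurve C).a₃ = W.a₃ := rfl

/-- The cubic of the quotient curve. -/
noncomputable def FV : K[X] :=
  Polynomial.C 4 * X ^ 3 + Polynomial.C W.b₂ * X ^ 2
    + Polynomial.C (2 * (W.b₄ - 10 * tV C)) * X
    + Polynomial.C (W.b₆ - 4 * W.b₂ * tV C - 28 * wV C)

/-- `FV` is the two-torsion polynomial of the quotient curve. -/
lemma FV_eq : FV C = (veluCurve C).twoTorsionPolynomial.toPoly := by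
  rw [FV, WeierstrassCurve.twoTorsionPolynomial, Cubic.toPoly]
  simp only [WeierstrassCurve.b₂, WeierstrassCurve.b₄, WeierstrassCurve.b₆, veluCurve]
  simp only [map_ofNat, map_mul, map_add, map_sub, map_pow]
  ring

/-- Vélu's abscissa of the image of a point. -/
noncomputable def Xv (P : W.Point) : K := ∑ Q ∈ Cf C, (xc (P + Q) - xc Q)

/-- Vélu's `2 y + a₁ x + a₃` of the image of a point. -/
noncomputable def Gv (P : W.Point) : K := ∑ Q ∈ Cf C, gc (P + Q)

/-- Sums over the subgroup are invariant under translation by its elements. -/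
lemma sum_Cf_add {M : Type*} [AddCommMonoid M] (f : W.Point → M) {R : W.Point} (hR : R ∈ C) :
    ∑ Q ∈ Cf C, f (Q + R) = ∑ Q ∈ Cf C, f Q :=
  Finset.sum_nbij' (· + R) (· - R) (fun _ hQ => (mem_Cf C).mpr (add_mem ((mem_Cf C).mp hQ) hR))
    (fun _ hQ => (mem_Cf C).mpr (sub_mem ((mem_Cf C).mp hQ) hR))
    (fun _ _ => add_sub_cancel_right _ R) (fun _ _ => sub_add_cancel _ R) (fun _ _ => rfl)

/-- Sums over the subgroup are invariant under negation. -/
lemma sum_Cf_neg {M : Type*} [AddCommMonoid M] (f : W.Point → M) :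
    ∑ Q ∈ Cf C, f (-Q) = ∑ Q ∈ Cf C, f Q :=
  Finset.sum_nbij' (- ·) (- ·) (fun _ hQ => (mem_Cf C).mpr (neg_mem ((mem_Cf C).mp hQ)))
    (fun _ hQ => (mem_Cf C).mpr (neg_mem ((mem_Cf C).mp hQ)))
    (fun _ _ => neg_neg _) (fun _ _ => neg_neg _) (fun _ _ => rfl)

/-- Sums over the nonzero elements of the subgroup are invariant under negation. -/
lemma sum_Cs_neg {M : Type*} [AddCommMonoid M] (f : W.Point → M) :
    ∑ Q ∈ Cs C, f (-Q) = ∑ Q ∈ Cs C, f Q := by
  refine Finset.sum_nbij' (- ·) (- ·) ?_ ?_ (fun Q _ => neg_neg Q) (fun Q _ => neg_neg Q)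
    (fun _ _ => rfl) <;>
  · intro Q hQ
    simp only [mem_Cs] at hQ ⊢
    exact ⟨neg_ne_zero.mpr hQ.1, neg_mem hQ.2⟩

/-- Splitting off the zero term of a sum over the subgroup. -/
lemma sum_Cf_eq {M : Type*} [AddCommMonoid M] (f : W.Point → M) :
    ∑ Q ∈ Cf C, f Q = f 0 + ∑ Q ∈ Cs C, f Q :=
  (Finset.add_sum_erase _ f ((mem_Cf C).mpr (zero_mem C))).symm

omit [Finite C] in
/-- Translating a point outside the subgroup by the subgroup never gives zero. -/
lemma xc_neg_mem {P : W.Point} (hP : P ∉ C) {Q : W.Point} (hQ : Q ∈ C) : P + Q ≠ 0 := fun h =>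
  hP (by rw [eq_neg_of_add_eq_zero_left h]; exact neg_mem hQ)

variable [W.IsElliptic]

/-- Vélu's abscissa as a function on the curve. -/
noncomputable def Xfun : FF W :=
  ∑ Q ∈ Cf C, (xc (P₀ + ι Q) - cst W (xc Q))

/-- Vélu's `2 y + a₁ x + a₃` as a function on the curve. -/
noncomputable def Gfun : FF W := ∑ Q ∈ Cf C, gc (P₀ + ι Q)

/-- The closed form of `Xfun - x`. -/
noncomputable def dlt : FF W :=
  (∑ Q ∈ Cs C, (cst W (tq Q) / (gx W - cst W (xc Q))
    + cst W (uq Q) / (gx W - cst W (xc Q)) ^ 2)) / 2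

/-- The closed form of the derivative of `Xfun - x`. -/
noncomputable def dlt' : FF W :=
  -(∑ Q ∈ Cs C, (cst W (tq Q) / (gx W - cst W (xc Q)) ^ 2
    + 2 * cst W (uq Q) / (gx W - cst W (xc Q)) ^ 3)) / 2

/-- The expansion of `dlt'` at infinity. -/
lemma exists_dlt'_expansion {V : ValuationSubring (FF W)} (hV : IsPlace V)
    (h : Red V P₀ (0 : W.Point)) :
    ∃ c ∈ V, dlt' C = -cst W (tV C) * (gx W)⁻¹ ^ 2 - 2 * cst W (wV C) * (gx W)⁻¹ ^ 3
      + (gx W)⁻¹ ^ 4 * c := by
  set u := (gx W)⁻¹ with hu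
  refine ⟨(∑ Q ∈ Cs C, (-(cst W (tq Q) * (3 * cst W (xc Q) ^ 2 - 2 * cst W (xc Q) ^ 3 * u))
      / (1 - cst W (xc Q) * u) ^ 2
    - 2 * cst W (uq Q) * (3 * cst W (xc Q) - 3 * cst W (xc Q) ^ 2 * u + cst W (xc Q) ^ 3 * u ^ 2)
      / (1 - cst W (xc Q) * u) ^ 3))
      * cst W (2 : K)⁻¹, ?_, ?_⟩
  · refine mul_mem (sum_mem fun Q _ => ?_) (hV.cst_mem _)
    have h1 := eqv_one_sub hV h (xc Q)
    have hn : ∀ n : ℕ, (n : FF W) ∈ V := fun n => by
      rw [← map_natCast (cst W)]; exact hV.cst_mem _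
    have h2 : (2 : FF W) ∈ V := hn 2
    have h3 : (3 : FF W) ∈ V := hn 3
    have hu' : u ∈ V := (eqv_inv_gx h).mem hV
    have hc := hV.cst_mem
    refine sub_mem ?_ ?_
    · rw [div_eq_mul_inv]
      exact mul_mem (neg_mem (mul_mem (hc _) (sub_mem (mul_mem h3 (pow_mem (hc _) 2))
        (mul_mem (mul_mem h2 (pow_mem (hc _) 3)) hu'))))
          (((h1.pow hV 2).inv hV (by simp)).mem hV)
    · rw [div_eq_mul_inv]
      exact mul_mem (mul_mem (mul_mem h2 (hc _)) (add_mem (sub_mem (mul_mem h3 (hc _))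
        (mul_mem (mul_mem h3 (pow_mem (hc _) 2)) hu'))
          (mul_mem (pow_mem (hc _) 3) (pow_mem hu' 2))))
            (((h1.pow hV 3).inv hV (by simp)).mem hV)
  · simp only [dlt', tV, wV, map_div₀, map_sum, map_ofNat, map_inv₀, div_eq_mul_inv _ (2 : FF W),
      neg_mul, Finset.sum_mul, Finset.mul_sum, ← Finset.sum_neg_distrib, sub_eq_add_neg,
      ← Finset.sum_add_distrib]
    refine Finset.sum_congr rfl fun Q _ => ?_
    have hne : gx W - cst W (xc Q) ≠ 0 := sub_ne_zero.mpr (gx_ne_cst W _)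
    have := inv_expansion (t := cst W (tq Q)) (q := cst W (uq Q)) (gx_ne_zero (W := W)) hne
    simp only [map_add, map_mul, hu, ← sub_eq_add_neg] at this ⊢
    rw [← neg_mul, this]
    ring

section TwoInvertible

variable [NeZero (2 : K)]

/-- The closed form of Vélu's abscissa function. -/
lemma Xfun_eq : Xfun C = gx W + dlt C := by
  have h2 := two_ne_FF (W := W)
  rw [Xfun, sum_Cf_eq, map_zero, add_zero, xc_zero, map_zero, sub_zero]
  congr 1
  rw [dlt, eq_div_iff h2, mul_two]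
  conv_lhs => arg 2; rw [← sum_Cs_neg C]
  rw [← Finset.sum_add_distrib]
  refine Finset.sum_congr rfl fun Q hQ => ?_
  cases Q with
  | zero => exact absurd rfl ((mem_Cs C).mp hQ).1
  | some r s h =>
    have hne : gx W ≠ cst W r := gx_ne_cst W r
    have := xc_add_add_xc_sub (F := FF W) (E := WF W) nonsingular_gxy (nonsingular_cst h) hne
    rw [map_neg, ι_some]
    simp only [tq, uq, gc_some, xc_neg, xc_some, map_add, map_mul, map_pow, map_ofNat]
    simp only [WeierstrassCurve.baseChange, map_b₂, map_b₄, map_a₁, map_a₃] at this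
    rw [P₀, ← this]
    ring

/-- The closed form of Vélu's function `2 y + a₁ x + a₃`. -/
lemma Gfun_eq : Gfun C = gg * (1 + dlt' C) := by
  have h2 := two_ne_FF (W := W)
  rw [Gfun, sum_Cf_eq, map_zero, add_zero, mul_add, mul_one, ← gg]
  congr 1
  rw [dlt', ← mul_div_assoc, eq_div_iff h2, mul_two, ← Finset.sum_neg_distrib, Finset.mul_sum]
  conv_lhs => arg 2; rw [← sum_Cs_neg C]
  rw [← Finset.sum_add_distrib]
  refine Finset.sum_congr rfl fun Q hQ => ?_
  cases Q with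
  | zero => exact absurd rfl ((mem_Cs C).mp hQ).1
  | some r s h =>
    have hne : gx W ≠ cst W r := gx_ne_cst W r
    have := gc_add_add_gc_sub h2 nonsingular_gxy (nonsingular_cst h) hne
    rw [map_neg, ι_some]
    simp only [tq, uq, xc_some, map_add, map_mul, map_pow, map_ofNat]
    simp only [WeierstrassCurve.baseChange, map_b₂, map_b₄, map_a₁, map_a₃] at this
    rw [P₀, this, gg_eq]
    simp only [gc_some, map_add, map_mul, map_ofNat]
    ring

/-- The expansion of `dlt` at infinity. -/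
lemma exists_dlt_expansion {V : ValuationSubring (FF W)} (hV : IsPlace V)
    (h : Red V P₀ (0 : W.Point)) :
    ∃ c ∈ V, dlt C = cst W (tV C) * (gx W)⁻¹ + cst W (wV C) * (gx W)⁻¹ ^ 2
      + (gx W)⁻¹ ^ 3 * c := by
  set u := (gx W)⁻¹ with hu
  refine ⟨(∑ Q ∈ Cs C, (cst W (tq Q) * cst W (xc Q) ^ 2 / (1 - cst W (xc Q) * u)
    + cst W (uq Q) * (2 * cst W (xc Q) - cst W (xc Q) ^ 2 * u) / (1 - cst W (xc Q) * u) ^ 2))
      * cst W (2 : K)⁻¹, ?_, ?_⟩
  · refine mul_mem (sum_mem fun Q _ => ?_) (hV.cst_mem _)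
    have h1 := eqv_one_sub hV h (xc Q)
    have h2 : (2 : FF W) ∈ V := by rw [← map_ofNat (cst W)]; exact hV.cst_mem 2
    have hu' : u ∈ V := (eqv_inv_gx h).mem hV
    refine add_mem ?_ ?_
    · rw [div_eq_mul_inv]
      exact mul_mem (mul_mem (hV.cst_mem _) (pow_mem (hV.cst_mem _) 2))
        ((h1.inv hV one_ne_zero).mem hV)
    · rw [div_eq_mul_inv]
      exact mul_mem (mul_mem (hV.cst_mem _) (sub_mem (mul_mem h2 (hV.cst_mem _))
        (mul_mem (pow_mem (hV.cst_mem _) 2) hu')))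
          (((h1.pow hV 2).inv hV (by simp)).mem hV)
  · simp only [dlt, tV, wV, map_div₀, map_sum, map_ofNat, map_inv₀, div_eq_mul_inv _ (2 : FF W),
      Finset.sum_mul, Finset.mul_sum, ← Finset.sum_add_distrib]
    refine Finset.sum_congr rfl fun Q _ => ?_
    have hne : gx W - cst W (xc Q) ≠ 0 := sub_ne_zero.mpr (gx_ne_cst W _)
    have hne' := (eqv_one_sub hV h (xc Q)).ne_zero hV one_ne_zero
    have hx := gx_ne_zero (W := W)
    have h2 := two_ne_FF (W := W)
    simp only [map_add, map_mul, hu] at hne' ⊢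
    field_simp
    ring

/-- The two sides of the equation of Vélu's curve agree at infinity. -/
private lemma Gfun_sq_atInfinity {V : ValuationSubring (FF W)} (hV : IsPlace V)
    (h : Red V P₀ (0 : W.Point)) :
    Gfun C ^ 2 - aeval (Xfun C) (FV C) ∈ V.nonunits := by
  obtain ⟨c, hc, hd⟩ := exists_dlt_expansion C hV h
  obtain ⟨e, he, hd'⟩ := exists_dlt'_expansion C hV h
  have hu := eqv_inv_gx h
  have hx := gx_ne_zero (W := W)
  have hsq := gg_sq (W := W)
  have hXf : aeval (Xfun C) (FV C) = 4 * Xfun C ^ 3 + cst W W.b₂ * Xfun C ^ 2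
      + 2 * (cst W W.b₄ - 10 * cst W (tV C)) * Xfun C
      + (cst W W.b₆ - 4 * cst W W.b₂ * cst W (tV C) - 28 * cst W (wV C)) := by
    simp only [FV, map_add, map_sub, map_mul, map_pow, aeval_X, aeval_C, map_ofNat]
  rw [hXf, Gfun_eq, Xfun_eq, mul_pow, hsq, hd, hd']
  set u := (gx W)⁻¹ with hu'
  have hgx : gx W = u⁻¹ := (inv_inv _).symm
  rw [hgx]
  have hu0 : u ≠ 0 := inv_ne_zero hx
  set a := cst W (tV C)
  set b := cst W (wV C)
  set B2 := cst W W.b₂
  set B4 := cst W W.b₄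
  set B6 := cst W W.b₆
  set D := -a - 2 * b * u + e * u ^ 2 with hD
  set E := a + b * u + c * u ^ 2 with hE
  suffices hh : (4 * u⁻¹ ^ 3 + B2 * u⁻¹ ^ 2 + 2 * B4 * u⁻¹ + B6) *
      (1 + (-a * u ^ 2 - 2 * b * u ^ 3 + u ^ 4 * e)) ^ 2 -
      (4 * (u⁻¹ + (a * u + b * u ^ 2 + u ^ 3 * c)) ^ 3 +
        B2 * (u⁻¹ + (a * u + b * u ^ 2 + u ^ 3 * c)) ^ 2 +
        2 * (B4 - 10 * a) * (u⁻¹ + (a * u + b * u ^ 2 + u ^ 3 * c)) +
        (B6 - 4 * B2 * a - 28 * b)) = u * (8 * e + 2 * B2 * (-(2 * b) + e * u) +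
        2 * D * (2 * B4 + B6 * u)
      + (4 + B2 * u + 2 * B4 * u ^ 2 + B6 * u ^ 3) * D ^ 2 - 12 * c - 12 * E ^ 2
      - 4 * u ^ 2 * E ^ 3 - 2 * B2 * (b + c * u) - B2 * u * E ^ 2
      - 2 * (B4 - 10 * a) * E) by
    rw [hh, mul_comm]
    refine mul_mem_nonunits ?_ (eqv_zero_iff.mp hu)
    have hu'' : u ∈ V := hu.mem hV
    have hn : ∀ n : ℕ, (n : FF W) ∈ V := fun n => by
      rw [← map_natCast (cst W)]; exact hV.cst_mem _
    have h2 : (2 : FF W) ∈ V := hn 2
    have h4 : (4 : FF W) ∈ V := hn 4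
    have h8 : (8 : FF W) ∈ V := hn 8
    have h10 : (10 : FF W) ∈ V := hn 10
    have h12 : (12 : FF W) ∈ V := hn 12
    have ha : a ∈ V := hV.cst_mem _
    have hb : b ∈ V := hV.cst_mem _
    have hB2 : B2 ∈ V := hV.cst_mem _
    have hB4 : B4 ∈ V := hV.cst_mem _
    have hB6 : B6 ∈ V := hV.cst_mem _
    have hDm : D ∈ V :=
      add_mem (sub_mem (neg_mem ha) (mul_mem (mul_mem h2 hb) hu'')) (mul_mem he (pow_mem hu'' 2))
    have hEm : E ∈ V := add_mem (add_mem ha (mul_mem hb hu'')) (mul_mem hc (pow_mem hu'' 2))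
    repeat' first
      | assumption
      | apply add_mem
      | apply sub_mem
      | apply neg_mem
      | apply pow_mem
      | apply mul_mem
  rw [hD, hE]
  field_simp
  ring

end TwoInvertible

variable [IsAlgClosed K]

/-- `Xfun` is invariant under translations by the subgroup. -/
lemma τ_Xfun {R : W.Point} (hR : R ∈ C) : τ R (Xfun C) = Xfun C := by
  rw [Xfun, map_sum]
  simp only [map_sub, ← xc_pmap, map_add, pmap_τ_P₀, pmap_ι, AlgHom.commutes]
  rw [Finset.sum_sub_distrib, Finset.sum_sub_distrib]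
  congr 1
  rw [← sum_Cf_add C (fun Q => xc (P₀ + ι Q)) hR]
  simp only [map_add, add_comm, add_left_comm]

/-- `Gfun` is invariant under translations by the subgroup. -/
lemma τ_Gfun {R : W.Point} (hR : R ∈ C) : τ R (Gfun C) = Gfun C := by
  rw [Gfun, map_sum]
  simp only [← gc_pmap, map_add, pmap_τ_P₀, pmap_ι]
  rw [← sum_Cf_add C (fun Q => gc (P₀ + ι Q)) hR]
  simp only [map_add, add_comm, add_left_comm]

variable {C} in
/-- `Xfun` takes the value `Xv` at a point outside the subgroup. -/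
lemma eqv_Xfun {V : ValuationSubring (FF W)} (hV : IsPlace V) {A : W.Point} (h : Red V P₀ A)
    (hA : A ∉ C) : Eqv V (Xfun C) (Xv C A) :=
  Eqv.sum _ fun Q hQ => ((red_add_ι hV h Q).eqv_xc (xc_neg_mem C hA ((mem_Cf C).mp hQ))).sub
    (Eqv.cst _)

variable {C} in
/-- `Gfun` takes the value `Gv` at a point outside the subgroup. -/
lemma eqv_Gfun {V : ValuationSubring (FF W)} (hV : IsPlace V) {A : W.Point} (h : Red V P₀ A)
    (hA : A ∉ C) : Eqv V (Gfun C) (Gv C A) :=
  Eqv.sum _ fun Q hQ => (red_add_ι hV h Q).eqv_gc hV (xc_neg_mem C hA ((mem_Cf C).mp hQ))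

/-- Vélu's functions satisfy the equation of Vélu's curve. -/
theorem Gfun_sq [NeZero (2 : K)] : Gfun C ^ 2 = aeval (Xfun C) (FV C) := by
  have hreg : ∀ (V : ValuationSubring (FF W)) (A : W.Point), IsPlace V → Red V P₀ A →
      A = 0 ∨ A ∉ C → Gfun C ^ 2 - aeval (Xfun C) (FV C) ∈ V := by
    rintro V A hV hA (rfl | hC)
    · exact ValuationSubring.nonunits_subset (Gfun_sq_atInfinity C hV hA)
    · exact sub_mem (pow_mem ((eqv_Gfun hV hA hC).mem hV) 2)
        ((eqv_eval hV (FV C) (eqv_Xfun hV hA hC)).mem hV)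
  obtain ⟨c, hc⟩ := exists_cst_of_invariant C (z := Gfun C ^ 2 - aeval (Xfun C) (FV C))
    (fun Q hQ => by rw [map_sub, map_pow, τ_Gfun C hQ, ← aeval_algHom_apply, τ_Xfun C hQ]) hreg
  obtain ⟨V, hV, h⟩ := exists_place_infinity (W := W)
  have := (Eqv.cst (V := V) c).unique hV (hc ▸ eqv_zero_iff.mpr (Gfun_sq_atInfinity C hV h))
  rw [this, map_zero] at hc
  exact sub_eq_zero.mp hc.symm

end Fermat.Agent.Isogeny
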