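import Fermat.Agent.Isogeny.Translate

/-!
# Translations of the function field and Liouville's principle

Translation by a point `Q` is the endomorphism `τ Q` of the function field sending the generic
point `P₀` to `P₀ + Q`. We show that every place is centred at a point and every point carries a
place, that a nonzero function has only finitely many zeros, and that a function invariant under
translation by a subgroup `C` and regular at infinity and outside `C` is constant
(`exists_cst_of_invariant`).
-/

set_option autoImplicit false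

open WeierstrassCurve Polynomial
open scoped Polynomial.Bivariate WeierstrassCurve.Affine

namespace Fermat.Agent.Isogeny

universe u

variable {K : Type u} [Field K] {W : Affine K}
  {V : ValuationSubring (FF W)}

/-- The action of an endomorphism of the function field on points. -/
noncomputable abbrev pmap (f : FF W →ₐ[K] FF W) : (WF W).Point →+ (WF W).Point :=
  Affine.Point.map (W' := W) f

/-- The abscissa commutes with `pmap`. -/
lemma xc_pmap (f : FF W →ₐ[K] FF W) (P : (WF W).Point) : xc (pmap f P) = f (xc P) := by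
  cases P with
  | zero => exact (map_zero f).symm
  | some => rfl

/-- The ordinate commutes with `pmap`. -/
lemma yc_pmap (f : FF W →ₐ[K] FF W) (P : (WF W).Point) : yc (pmap f P) = f (yc P) := by
  cases P with
  | zero => exact (map_zero f).symm
  | some => rfl

/-- `2 y + a₁ x + a₃` commutes with `pmap`. -/
lemma gc_pmap (f : FF W →ₐ[K] FF W) (P : (WF W).Point) : gc (pmap f P) = f (gc P) := by
  cases P with
  | zero => exact (map_zero f).symm
  | some x y h =>
    rw [pmap, Affine.Point.map_some]
    simp only [gc, WF_coeff, map_add, map_mul, map_ofNat, AlgHom.commutes]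

lemma mem_nonunits_comap {f : FF W →ₐ[K] FF W} {z : FF W} :
    z ∈ (V.comap f.toRingHom).nonunits ↔ f z ∈ V.nonunits := by
  rw [ValuationSubring.mem_nonunits_iff_or, ValuationSubring.mem_nonunits_iff_or,
    ValuationSubring.mem_comap, ← map_inv₀ f, map_eq_zero]
  rfl

/-- Values at the pullback of a place. -/
lemma eqv_comap {f : FF W →ₐ[K] FF W} {z : FF W} {c : K} :
    Eqv (V.comap f.toRingHom) z c ↔ Eqv V (f z) c := by
  rw [Eqv, Eqv, mem_nonunits_comap, map_sub, AlgHom.commutes]

/-- Reductions at the pullback of a place. -/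
lemma red_comap {f : FF W →ₐ[K] FF W} {P : (WF W).Point} {A : W.Point} :
    Red (V.comap f.toRingHom) P A ↔ Red V (pmap f P) A := by
  cases A with
  | zero => cases P <;> rfl
  | some a b h =>
    cases P with
    | zero =>
      exact ⟨fun h => absurd rfl h.1, fun h => absurd (map_zero (pmap f)) h.1⟩
    | some x y hP =>
      exact ⟨fun h => ⟨Affine.Point.some_ne_zero _, eqv_comap.mp h.2.1, eqv_comap.mp h.2.2⟩,
        fun h => ⟨Affine.Point.some_ne_zero _, eqv_comap.mpr h.2.1, eqv_comap.mpr h.2.2⟩⟩

lemma finite_setOf_xc_eq (a : K) : {P : W.Point | P ≠ 0 ∧ xc P = a}.Finite := by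
  classical
  by_cases h : ∃ b, W.Nonsingular a b
  · obtain ⟨b, hb⟩ := h
    refine ((Set.finite_singleton (Affine.Point.some a b hb)).insert (-.some a b hb)).subset ?_
    rintro (_ | ⟨x, y, hxy⟩) ⟨hP, hx⟩
    · exact absurd rfl hP
    · obtain rfl : x = a := hx
      rcases (Affine.Point.X_eq_iff (h₁ := hxy) (h₂ := hb)).mp rfl with h1 | h1
      · exact Or.inr h1
      · exact Or.inl h1
  · convert Set.finite_empty
    ext P
    simp only [Set.mem_ofPred_eq, Set.mem_empty_iff_false, iff_false, not_and]
    cases P with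
    | zero => exact fun h1 => absurd rfl h1
    | some x y hxy => rintro - rfl; exact h ⟨y, hxy⟩

lemma exists_eqv_gx [IsAlgClosed K] (hV : IsPlace V) (hx : gx W ∈ V) : ∃ a : K, Eqv V (gx W) a := by
  by_contra! h
  apply hV.ne_top
  have hy : gy W ∈ V := y_mem_of_x_mem hV (equation_gxy W) hx
  have hpm : ∀ p : K[X], px W p ∈ V := fun p => by
    induction p using Polynomial.induction_on' with
    | add p q hp hq => rw [px, map_add]; exact add_mem hp hq
    | monomial n a => rw [px, aeval_monomial]; exact mul_mem (hV.cst_mem a) (pow_mem hx n)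
  have hlin : ∀ a : K, (gx W - cst W a)⁻¹ ∈ V := fun a => by
    by_contra h1
    exact h a (V.mem_nonunits_iff_or.mpr (Or.inr h1))
  have hunit : ∀ p : K[X], p ≠ 0 → (px W p)⁻¹ ∈ V := by
    intro p
    induction hn : p.natDegree using Nat.strong_induction_on generalizing p with
    | _ n ih =>
      intro hp0
      by_cases hd : p.natDegree = 0
      · rw [eq_C_of_natDegree_eq_zero hd, px, aeval_C, ← map_inv₀]
        exact hV.cst_mem _
      · have hdeg : p.degree ≠ 0 := by
          rw [degree_eq_natDegree hp0]; exact_mod_cast hd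
        obtain ⟨r, hr⟩ := IsAlgClosed.exists_root p hdeg
        obtain ⟨q, rfl⟩ := dvd_iff_isRoot.mpr hr
        have hq0 : q ≠ 0 := right_ne_zero_of_mul hp0
        rw [px, map_mul, mul_inv, map_sub, aeval_X, aeval_C]
        refine mul_mem (hlin r) (ih q.natDegree ?_ q rfl hq0)
        rw [← hn, natDegree_mul (X_sub_C_ne_zero r) hq0, natDegree_X_sub_C]
        omega
  refine SetLike.ext fun z => ⟨fun _ => ValuationSubring.mem_top _, fun _ => ?_⟩
  obtain ⟨p, q, D, hD, hz⟩ := exists_repr W z
  have hD' : px W D ≠ 0 := fun h0 => hD ((px_eq_zero W).mp h0)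
  rw [show z = (px W p + px W q * gy W) * (px W D)⁻¹ by
    rw [← hz, mul_assoc, mul_inv_cancel₀ hD', mul_one]]
  exact mul_mem (add_mem (hpm p) (mul_mem (hpm q) hy)) (hunit D hD)

/-- Every place is centred at some point. -/
theorem exists_red_P₀ [W.IsElliptic] [IsAlgClosed K] (hV : IsPlace V) :
    ∃ A : W.Point, Red V P₀ A := by
  by_cases hx : gx W ∈ V
  · obtain ⟨a, ha⟩ := exists_eqv_gx hV hx
    obtain ⟨b, hab, h⟩ := exists_red_of_eqv hV nonsingular_gxy ha
    exact ⟨_, h⟩
  · exact ⟨0, hx⟩

/-- There is a place at which the generic point reduces to infinity. -/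
lemma exists_place_infinity [W.IsElliptic] [IsAlgClosed K] :
    ∃ V : ValuationSubring (FF W), IsPlace V ∧ Red V P₀ 0 := by
  by_contra! h
  obtain ⟨c, hc⟩ := exists_cst_of_forall_mem (W := W) (z := gx W) fun V hV => by
    by_contra hx; exact h V hV hx
  exact gx_ne_cst W c hc.symm

variable [DecidableEq K]

/-- Endomorphisms of the function field fix constant points. -/
@[simp] lemma pmap_ι (f : FF W →ₐ[K] FF W) (R : W.Point) : pmap f (ι R) = ι R := by
  cases R with
  | zero => rfl
  | some a b h =>
    rw [ι_some, pmap, Affine.Point.map_some]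
    simp only [Affine.Point.some.injEq]
    exact ⟨f.commutes a, f.commutes b⟩

variable [W.IsElliptic]

lemma P₀_ne_ι (Q : W.Point) : (P₀ : (WF W).Point) ≠ ι Q := by
  cases Q with
  | zero => exact Affine.Point.some_ne_zero _
  | some a b h =>
    intro he
    exact gx_ne_cst W a (congr_arg xc he :)

lemma P₀_add_ι_ne_ι (Q R : W.Point) : (P₀ + ι Q : (WF W).Point) ≠ ι R := fun h =>
  P₀_ne_ι (R - Q) (by rw [map_sub, ← h, add_sub_cancel_right])

lemma P₀_add_ι_ne_zero (Q : W.Point) : (P₀ + ι Q : (WF W).Point) ≠ 0 := by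
  simpa using P₀_add_ι_ne_ι Q 0

lemma equation_P₀_add_ι (Q : W.Point) :
    (WF W).Equation (xc (P₀ + ι Q)) (yc (P₀ + ι Q)) := by
  have := P₀_add_ι_ne_zero Q
  cases hP : (P₀ + ι Q : (WF W).Point) with
  | zero => exact absurd hP this
  | some x y h => exact h.1

/-- A nonzero function has finitely many zeros. -/
lemma finite_zeros {z : FF W} (hz : z ≠ 0) :
    {A : W.Point | ∃ V : ValuationSubring (FF W), IsPlace V ∧ Red V P₀ A ∧
      z ∈ V.nonunits}.Finite := by
  classical
  obtain ⟨p, q, D, hD, hrep⟩ := exists_repr W z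
  have hne : px W p + px W q * gy W ≠ 0 := by
    rw [← hrep]; exact mul_ne_zero hz fun h0 => hD ((px_eq_zero W).mp h0)
  refine ((Set.finite_singleton (0 : W.Point)).union
    ((normPoly W p q).roots.toFinset.finite_toSet.biUnion fun a _ =>
      finite_setOf_xc_eq a)).subset ?_
  rintro (_ | ⟨a, b, hab⟩) ⟨V, hV, hA, hzV⟩
  · exact Or.inl rfl
  · refine Or.inr (Set.mem_biUnion (x := a) ?_ ⟨Affine.Point.some_ne_zero _, rfl⟩)
    rw [Finset.mem_coe, Multiset.mem_toFinset, mem_roots (normPoly_ne_zero W hne), IsRoot]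
    have hx : Eqv V (gx W) a := hA.2.1
    have hy : Eqv V (gy W) b := hA.2.2
    have h1 : Eqv V (px W p + px W q * gy W) 0 := by
      rw [← hrep, eqv_zero_iff, mul_comm]
      exact mul_mem_nonunits ((eqv_eval hV D hx).mem hV) hzV
    have h2 := h1.mul hV ((eqv_eval hV (p - q * (C W.a₁ * X + C W.a₃)) hx).sub
      ((eqv_eval hV q hx).mul hV hy))
    rw [zero_mul] at h2
    have h3 : Eqv V (px W (normPoly W p q)) 0 := by rw [← mul_conj]; exact h2
    exact (eqv_eval hV (normPoly W p q) hx).unique hV h3

variable [IsAlgClosed K]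

lemma transcendental_xc (Q : W.Point) : Transcendental K (xc (P₀ + ι Q)) := by
  intro halg
  obtain ⟨a, ha⟩ := exists_cst_of_isAlgebraic W halg
  have hne := P₀_add_ι_ne_zero Q
  cases hP : (P₀ + ι Q : (WF W).Point) with
  | zero => exact absurd hP hne
  | some x y h =>
    rw [hP] at ha
    replace ha : cst W a = x := ha
    subst ha
    obtain ⟨b, hb⟩ := IsAlgClosed.exists_root (C 1 * X ^ 2 + C (W.a₁ * a + W.a₃) * X
      + C (-(a ^ 3 + W.a₂ * a ^ 2 + W.a₄ * a + W.a₆)))
      (by rw [degree_quadratic one_ne_zero]; decide)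
    simp only [map_one, one_mul, IsRoot, eval_add, eval_pow, eval_X, eval_mul, eval_C] at hb
    have hb0 : W.Nonsingular a b := (Affine.equation_iff_nonsingular ..).mp
      (by rw [Affine.equation_iff]; linear_combination hb)
    rcases Affine.Y_eq_of_X_eq h.1 (nonsingular_cst hb0).1 rfl with hy | hy
    · subst hy
      exact P₀_add_ι_ne_ι Q (.some a b hb0) hP
    · subst hy
      exact P₀_add_ι_ne_ι Q (-.some a b hb0) (by rw [hP, map_neg, ι_some]; rfl)

/-- Translation by a constant point, as an endomorphism of the function field. -/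
noncomputable def τ (Q : W.Point) : FF W →ₐ[K] FF W :=
  ffHom (equation_P₀_add_ι Q) (transcendental_xc Q)

/-- Translation by `Q` moves the generic point by `Q`. -/
lemma pmap_τ_P₀ (Q : W.Point) : pmap (τ Q) P₀ = P₀ + ι Q := by
  have hne := P₀_add_ι_ne_zero Q
  rw [P₀, pmap, Affine.Point.map_some]
  cases hP : (P₀ + ι Q : (WF W).Point) with
  | zero => exact absurd hP hne
  | some x y h =>
    rw [show (Affine.Point.some _ _ nonsingular_gxy + ι Q : (WF W).Point) =
      .some x y h from hP]
    simp only [Affine.Point.some.injEq, τ, ffHom_gx, ffHom_gy, hP]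
    exact ⟨rfl, rfl⟩

lemma τ_comp_neg (Q : W.Point) : (τ Q).comp (τ (-Q)) = AlgHom.id K (FF W) := by
  have h : pmap (τ Q) (pmap (τ (-Q)) P₀) = P₀ := by
    rw [pmap_τ_P₀, map_add, pmap_τ_P₀, pmap_ι, map_neg, add_neg_cancel_right]
  refine algHom_ext ?_ ?_
  · have := congr_arg xc h; rw [xc_pmap, xc_pmap] at this; exact this
  · have := congr_arg yc h; rw [yc_pmap, yc_pmap] at this; exact this

/-- Translations are surjective. -/
lemma τ_surjective (Q : W.Point) : Function.Surjective (τ Q) := fun z =>
  ⟨τ (-Q) z, DFunLike.congr_fun (τ_comp_neg Q) z⟩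

/-- The pullback of a place by a translation is a place. -/
lemma IsPlace.comap (hV : IsPlace V) (Q : W.Point) : IsPlace (V.comap (τ Q).toRingHom) := by
  refine ⟨fun c => ?_, fun h => hV.ne_top (SetLike.ext fun z => ⟨fun _ => trivial, fun _ => ?_⟩)⟩
  · show τ Q (cst W c) ∈ V
    rw [AlgHom.commutes]; exact hV.cst_mem c
  · obtain ⟨w, rfl⟩ := τ_surjective Q z
    have : w ∈ V.comap (τ Q).toRingHom := h ▸ ValuationSubring.mem_top w
    exact this

/-- A function regular at every place centred at infinity or outside the finite group `C` and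
invariant under translation by `C` is constant. -/
theorem exists_cst_of_invariant (C : AddSubgroup W.Point) {z : FF W}
    (hinv : ∀ Q ∈ C, τ Q z = z)
    (hreg : ∀ (V : ValuationSubring (FF W)) (A : W.Point), IsPlace V → Red V P₀ A →
      A = 0 ∨ A ∉ C → z ∈ V) : ∃ c : K, cst W c = z := by
  refine exists_cst_of_forall_mem fun V hV => ?_
  obtain ⟨A, hA⟩ := exists_red_P₀ hV
  by_cases hC : A ∈ C
  swap
  · exact hreg V A hV hA (Or.inr hC)
  have h := hreg (V.comap (τ (-A)).toRingHom) 0 (hV.comap _) (red_comap.mpr ?_) (Or.inl rfl)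
  · rw [ValuationSubring.mem_comap] at h
    rwa [show (τ (-A)).toRingHom z = τ (-A) z from rfl, hinv _ (neg_mem hC)] at h
  · rw [pmap_τ_P₀]
    simpa using red_add_ι hV hA (-A)

/-- Every point is the reduction of the generic point at some place. -/
lemma exists_place_at (A : W.Point) : ∃ V : ValuationSubring (FF W), IsPlace V ∧ Red V P₀ A := by
  obtain ⟨V, hV, h⟩ := exists_place_infinity (W := W)
  refine ⟨V.comap (τ A).toRingHom, hV.comap _, red_comap.mpr ?_⟩
  rw [pmap_τ_P₀]
  simpa using red_add_ι hV h A

instance : Infinite W.Point := by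
  refine Infinite.of_surjective (α := W.Point) xc fun a => ?_
  obtain ⟨b, hb⟩ := IsAlgClosed.exists_root (C 1 * X ^ 2 + C (W.a₁ * a + W.a₃) * X
    + C (-(a ^ 3 + W.a₂ * a ^ 2 + W.a₄ * a + W.a₆)))
    (by rw [degree_quadratic one_ne_zero]; decide)
  simp only [map_one, one_mul, IsRoot, eval_add, eval_pow, eval_X, eval_mul, eval_C] at hb
  exact ⟨.some a b ((Affine.equation_iff_nonsingular ..).mp
    (by rw [Affine.equation_iff]; linear_combination hb)), rfl⟩

end Fermat.Agent.Isogeny
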