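import Fermat.Agent.Isogeny.Smooth

/-!
# Orders at infinity and invariant functions with small poles

Using the uniformiser `unif = x / y` at infinity we show that every nonzero function has an order
at infinity, and describe the functions invariant under translation by an odd-order subgroup `C`
and regular outside `C` with pole order at most three at infinity as combinations of `1`,
`Xfun C`, `Gfun C`.
-/

set_option autoImplicit false

open WeierstrassCurve Polynomial
open scoped Polynomial.Bivariate WeierstrassCurve.Affine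

namespace Fermat.Agent.Isogeny

universe u

variable {K : Type u} [Field K] {W : Affine K} {V : ValuationSubring (FF W)}

/-- The uniformiser `x / y` at infinity. -/
noncomputable def unif : FF W := gx W / gy W

lemma gy_ne_zero : gy W ≠ 0 := fun h => by
  have := px_add_mul_eq_zero W (p := 0) (q := 1) (by simp [px, h])
  simp at this

/-- The uniformiser at infinity is nonzero. -/
lemma unif_ne_zero : unif (W := W) ≠ 0 := div_ne_zero gx_ne_zero gy_ne_zero

variable [W.IsElliptic]

lemma gy_div_gx_notMem (hV : IsPlace V) (h : Red V P₀ (0 : W.Point)) : gy W / gx W ∉ V := by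
  intro hm
  have hx := gx_ne_zero (W := W)
  have he := (Affine.equation_iff ..).mp (equation_gxy W)
  simp only [WeierstrassCurve.baseChange, map_a₁, map_a₂, map_a₃, map_a₄, map_a₆] at he
  have hu : (gx W)⁻¹ ∈ V := (eqv_inv_gx h).mem hV
  apply h
  show gx W ∈ V
  rw [show gx W = (gy W / gx W) ^ 2 + cst W W.a₁ * (gy W / gx W)
      + cst W W.a₃ * (gy W / gx W) * (gx W)⁻¹
      - cst W W.a₂ - cst W W.a₄ * (gx W)⁻¹ - cst W W.a₆ * (gx W)⁻¹ ^ 2 by
    field_simp; linear_combination -he]
  exact sub_mem (sub_mem (sub_mem (add_mem (add_mem (pow_mem hm 2)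
    (mul_mem (hV.cst_mem _) hm)) (mul_mem (mul_mem (hV.cst_mem _) hm) hu)) (hV.cst_mem _))
    (mul_mem (hV.cst_mem _) hu)) (mul_mem (hV.cst_mem _) (pow_mem hu 2))

/-- `x / y` vanishes at infinity. -/
lemma eqv_unif (hV : IsPlace V) (h : Red V P₀ (0 : W.Point)) : Eqv V (unif (W := W)) 0 := by
  rw [eqv_zero_iff, unif, ← inv_div]
  exact inv_mem_nonunits_of_notMem (gy_div_gx_notMem hV h)

/-- `x` has a double pole at infinity, with leading coefficient `1`. -/
lemma eqv_gx_unif (hV : IsPlace V) (h : Red V P₀ (0 : W.Point)) :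
    Eqv V (gx W * unif ^ 2) 1 := by
  have hx := gx_ne_zero (W := W)
  have hy := gy_ne_zero (W := W)
  have he := (Affine.equation_iff ..).mp (equation_gxy W)
  simp only [WeierstrassCurve.baseChange, map_a₁, map_a₂, map_a₃, map_a₄, map_a₆] at he
  set u := (gx W)⁻¹ with hu
  have huv : Eqv V u 0 := eqv_inv_gx h
  have hs := eqv_unif hV h
  have h1 : Eqv V (1 + cst W W.a₁ * unif + cst W W.a₃ * (unif * u)) 1 := by
    convert ((Eqv.cst (V := V) (1 : K)).add ((Eqv.cst W.a₁).mul hV hs)).add
      ((Eqv.cst W.a₃).mul hV (hs.mul hV huv)) using 1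
    · rw [map_one]
    · ring
  have h2 : Eqv V (1 + cst W W.a₂ * u + cst W W.a₄ * u ^ 2 + cst W W.a₆ * u ^ 3) 1 := by
    convert (((Eqv.cst (V := V) (1 : K)).add ((Eqv.cst W.a₂).mul hV huv)).add
      ((Eqv.cst W.a₄).mul hV (huv.pow hV 2))).add ((Eqv.cst W.a₆).mul hV (huv.pow hV 3)) using 1
    · rw [map_one]
    · ring
  have h2' := h2.ne_zero hV one_ne_zero
  rw [show gx W * unif ^ 2 = (1 + cst W W.a₁ * unif + cst W W.a₃ * (unif * u))
      / (1 + cst W W.a₂ * u + cst W W.a₄ * u ^ 2 + cst W W.a₆ * u ^ 3) by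
    rw [eq_div_iff h2', unif, hu]; field_simp; linear_combination -he]
  convert h1.div hV h2 one_ne_zero using 1
  rw [div_one]

/-- `y` has a triple pole at infinity, with leading coefficient `1`. -/
lemma eqv_gy_unif (hV : IsPlace V) (h : Red V P₀ (0 : W.Point)) :
    Eqv V (gy W * unif ^ 3) 1 := by
  have hy := gy_ne_zero (W := W)
  convert eqv_gx_unif hV h using 1
  rw [unif]
  field_simp

lemma eqv_px_unif (hV : IsPlace V) (h : Red V P₀ (0 : W.Point)) (p : K[X]) :
    Eqv V (px W p * unif ^ (2 * p.natDegree)) p.leadingCoeff := by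
  set d := p.natDegree with hd
  have hsum : px W p * unif ^ (2 * d) = ∑ i ∈ Finset.range (d + 1),
      cst W (p.coeff i) * (gx W * unif ^ 2) ^ i * unif ^ (2 * (d - i)) := by
    rw [px, aeval_eq_sum_range, Finset.sum_mul]
    refine Finset.sum_congr rfl fun i hi => ?_
    rw [Algebra.smul_def, mul_pow, mul_assoc, mul_assoc, mul_assoc, ← pow_mul, ← pow_add]
    congr 3
    rw [Finset.mem_range] at hi
    omega
  rw [hsum, Finset.sum_range_succ]
  have h0 : Eqv V (∑ i ∈ Finset.range d,
      cst W (p.coeff i) * (gx W * unif ^ 2) ^ i * unif ^ (2 * (d - i))) 0 := by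
    convert Eqv.sum (V := V) _ (g := fun _ => (0 : K)) fun i hi => ?_
    · simp
    · have := Finset.mem_range.mp hi
      convert ((Eqv.cst (p.coeff i)).mul hV ((eqv_gx_unif hV h).pow hV i)).mul hV
        ((eqv_unif hV h).pow hV (2 * (d - i))) using 1
      rw [zero_pow (by omega), mul_zero]
  convert h0.add (((Eqv.cst (p.coeff d)).mul hV ((eqv_gx_unif hV h).pow hV d)).mul hV
    (Eqv.cst (1 : K))) using 1
  · rw [Nat.sub_self, mul_zero, pow_zero, map_one]
  · rw [one_pow, mul_one, mul_one, zero_add, Polynomial.leadingCoeff, hd]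

lemma unif_pow_mem_nonunits (hV : IsPlace V) (h : Red V P₀ (0 : W.Point)) {n : ℕ} (hn : n ≠ 0) :
    unif (W := W) ^ n ∈ V.nonunits := by
  have h1 := (eqv_unif hV h).pow hV n
  rw [zero_pow hn] at h1
  exact eqv_zero_iff.mp h1

lemma inv_gx_pow_mem_nonunits (hV : IsPlace V) (h : Red V P₀ (0 : W.Point)) {n : ℕ} (hn : n ≠ 0) :
    (gx W)⁻¹ ^ n ∈ V.nonunits := by
  have h1 := (eqv_inv_gx h).pow hV n
  rw [zero_pow hn] at h1
  exact eqv_zero_iff.mp h1

/-- `z` takes the value `c` at infinity. -/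
def AtInf (z : FF W) (c : K) : Prop :=
  ∀ V : ValuationSubring (FF W), IsPlace V → Red V P₀ (0 : W.Point) → Eqv V z c

lemma AtInf.of_pow_zero {z : FF W} {c : K} (h : AtInf (z * unif ^ 0) c) : AtInf z c :=
  fun V hV hA => by have h1 := h V hV hA; rw [pow_zero, mul_one] at h1; exact h1

/-- Every nonzero function has an order at infinity. -/
lemma exists_order {z : FF W} (hz : z ≠ 0) :
    ∃ k : ℤ, ∃ c : K, c ≠ 0 ∧ AtInf (z * unif ^ k) c := by
  obtain ⟨p, q, D, hD, hrep⟩ := exists_repr W z
  have hnum : px W p + px W q * gy W ≠ 0 := by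
    rw [← hrep]; exact mul_ne_zero hz fun h0 => hD ((px_eq_zero W).mp h0)
  have main : ∃ n : ℕ, ∃ c : K, c ≠ 0 ∧ AtInf ((px W p + px W q * gy W) * unif ^ n) c := by
    have hq3 : AtInf (px W q * gy W * unif ^ (2 * q.natDegree + 3)) q.leadingCoeff := by
      intro V hV h
      convert (eqv_px_unif hV h q).mul hV (eqv_gy_unif hV h) using 1 <;> ring
    by_cases hq : q = 0
    · subst hq
      have hp : p ≠ 0 := fun h0 => hnum (by simp [px, h0])
      exact ⟨2 * p.natDegree, p.leadingCoeff, leadingCoeff_ne_zero.mpr hp,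
        fun V hV h => by simpa [px] using eqv_px_unif hV h p⟩
    by_cases hp : p = 0
    · subst hp
      exact ⟨_, q.leadingCoeff, leadingCoeff_ne_zero.mpr hq,
        fun V hV h => by simpa [px] using hq3 V hV h⟩
    rcases Nat.lt_or_gt_of_ne (show 2 * p.natDegree ≠ 2 * q.natDegree + 3 by omega) with hlt | hgt
    · refine ⟨2 * q.natDegree + 3, q.leadingCoeff, leadingCoeff_ne_zero.mpr hq, fun V hV h => ?_⟩
      obtain ⟨e, he⟩ := Nat.exists_eq_add_of_lt hlt
      have h1 := ((eqv_px_unif hV h p).mul hV ((eqv_unif hV h).pow hV (e + 1))).add (hq3 V hV h)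
      rw [mul_assoc, ← pow_add, show 2 * p.natDegree + (e + 1) = 2 * q.natDegree + 3 by omega,
        ← add_mul, zero_pow (Nat.succ_ne_zero e), mul_zero, zero_add] at h1
      exact h1
    · refine ⟨2 * p.natDegree, p.leadingCoeff, leadingCoeff_ne_zero.mpr hp, fun V hV h => ?_⟩
      obtain ⟨e, he⟩ := Nat.exists_eq_add_of_lt hgt
      have h1 := (eqv_px_unif hV h p).add ((hq3 V hV h).mul hV ((eqv_unif hV h).pow hV (e + 1)))
      rw [mul_assoc (px W q * gy W), ← pow_add,
        show 2 * q.natDegree + 3 + (e + 1) = 2 * p.natDegree by omega, ← add_mul,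
        zero_pow (Nat.succ_ne_zero e), mul_zero, add_zero] at h1
      exact h1
  obtain ⟨n, c, hc, hn⟩ := main
  have hlD := leadingCoeff_ne_zero.mpr hD
  refine ⟨(n : ℤ) - (2 * D.natDegree : ℕ), c / D.leadingCoeff, div_ne_zero hc hlD,
    fun V hV h => ?_⟩
  have h1 := (hn V hV h).div hV (eqv_px_unif hV h D) hlD
  have hs0 := unif_ne_zero (W := W)
  have hD0 : px W D ≠ 0 := fun h0 => hD ((px_eq_zero W).mp h0)
  rw [show z * unif ^ ((n : ℤ) - (2 * D.natDegree : ℕ)) =
      (px W p + px W q * gy W) * unif ^ n / (px W D * unif ^ (2 * D.natDegree)) by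
    rw [zpow_sub₀ hs0, zpow_natCast, zpow_natCast, ← hrep]; field_simp]
  exact h1

/-- A function integral at one place at infinity has a value at infinity. -/
lemma exists_atInf (hV : IsPlace V) (h : Red V P₀ (0 : W.Point)) {z : FF W} (hz : z ∈ V) :
    ∃ c : K, AtInf z c := by
  rcases eq_or_ne z 0 with rfl | h0
  · exact ⟨0, fun V' _ _ => eqv_zero_iff.mpr V'.nonunits.zero_mem⟩
  obtain ⟨k, c, hc, hk⟩ := exists_order h0
  rcases k with m | m
  · rcases m with - | m
    · exact ⟨c, fun V' hV' h' => by simpa using hk V' hV' h'⟩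
    · exfalso
      have hk' := hk V hV h
      rw [Int.ofNat_eq_natCast, zpow_natCast] at hk'
      refine hc (hk'.unique hV (eqv_zero_iff.mpr (mul_mem_nonunits hz ?_)))
      exact unif_pow_mem_nonunits hV h (Nat.succ_ne_zero m)
  · refine ⟨0, fun V' hV' h' => ?_⟩
    have hk' := hk V' hV' h'
    rw [zpow_negSucc] at hk'
    have := hk'.mul hV' ((eqv_unif hV' h').pow hV' (m + 1))
    rwa [inv_mul_cancel_right₀ (pow_ne_zero _ unif_ne_zero), zero_pow (Nat.succ_ne_zero m),
      mul_zero] at this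

/-- The maximal ideal at infinity is generated by the uniformiser. -/
lemma exists_atInf_of_mul_unif [IsAlgClosed K] {z : FF W} (hz : AtInf (z * unif) 0) :
    ∃ c : K, AtInf z c := by
  obtain ⟨V, hV, h⟩ := exists_place_infinity (W := W)
  have hs0 := unif_ne_zero (W := W)
  refine exists_atInf hV h ?_
  rcases eq_or_ne z 0 with rfl | h0
  · exact V.zero_mem
  obtain ⟨k, c, hc, hk⟩ := exists_order (mul_ne_zero h0 hs0)
  have hk' := hk V hV h
  rcases k with m | m
  · exfalso
    rw [Int.ofNat_eq_natCast, zpow_natCast] at hk'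
    exact hc (hk'.unique hV (by simpa using (hz V hV h).mul hV ((eqv_unif hV h).pow hV m)))
  · rw [zpow_negSucc] at hk'
    have := mul_mem (hk'.mem hV) (pow_mem ((eqv_unif hV h).mem hV) m)
    rwa [show z * unif * (unif ^ (m + 1))⁻¹ * unif ^ m = z by
      rw [pow_succ]; field_simp] at this

/-- Removing the leading term lowers the pole order. -/
lemma sub_lower [IsAlgClosed K] {z z' : FF W} {n : ℕ} {a b : K}
    (hz : AtInf (z * unif ^ (n + 1)) a) (hz' : AtInf (z' * unif ^ (n + 1)) b) (hb : b ≠ 0) :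
    ∃ c : K, AtInf ((z - cst W (a / b) * z') * unif ^ n) c := by
  refine exists_atInf_of_mul_unif fun V hV h => ?_
  convert (hz V hV h).sub ((Eqv.cst (a / b)).mul hV (hz' V hV h)) using 1
  · ring
  · field_simp; ring

variable [DecidableEq K]

section TwoInvertible

variable [NeZero (2 : K)] (C : AddSubgroup W.Point) [Finite C]

/-- `Xfun` has a double pole at infinity, with leading coefficient `1`. -/
lemma eqv_Xfun_unif (hV : IsPlace V) (h : Red V P₀ (0 : W.Point)) :
    Eqv V (Xfun C * unif ^ 2) 1 := by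
  obtain ⟨c, hc, hd⟩ := exists_dlt_expansion C hV h
  have hu := eqv_inv_gx h
  have hd0 : Eqv V (dlt C) 0 := by
    rw [hd, eqv_zero_iff]
    refine V.nonunits.add_mem (V.nonunits.add_mem (mul_mem_nonunits (hV.cst_mem _)
      (eqv_zero_iff.mp hu)) (mul_mem_nonunits (hV.cst_mem _) ?_)) ?_
    · exact inv_gx_pow_mem_nonunits hV h two_ne_zero
    · rw [mul_comm]; exact mul_mem_nonunits hc (inv_gx_pow_mem_nonunits hV h three_ne_zero)
  rw [Xfun_eq, add_mul]
  convert (eqv_gx_unif hV h).add (hd0.mul hV ((eqv_unif hV h).pow hV 2)) using 1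
  ring

lemma eqv_Gfun_unif (hV : IsPlace V) (h : Red V P₀ (0 : W.Point)) :
    Eqv V (Gfun C * unif ^ 3) 2 := by
  obtain ⟨c, hc, hd⟩ := exists_dlt'_expansion C hV h
  have hu := eqv_inv_gx h
  have hs := eqv_unif hV h
  have hd0 : Eqv V (dlt' C) 0 := by
    rw [hd, eqv_zero_iff]
    refine V.nonunits.add_mem (V.nonunits.sub_mem (mul_mem_nonunits (neg_mem (hV.cst_mem _)) ?_)
      (mul_mem_nonunits (mul_mem ?_ (hV.cst_mem _)) ?_)) ?_
    · exact inv_gx_pow_mem_nonunits hV h two_ne_zero
    · rw [← map_ofNat (cst W)]; exact hV.cst_mem 2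
    · exact inv_gx_pow_mem_nonunits hV h three_ne_zero
    · rw [mul_comm]; exact mul_mem_nonunits hc (inv_gx_pow_mem_nonunits hV h four_ne_zero)
  have h2 : Eqv V (2 : FF W) (2 : K) := by simpa only [map_ofNat] using Eqv.cst (V := V) (2 : K)
  have hg : Eqv V (gg * unif ^ 3) 2 := by
    rw [gg_eq]
    convert ((h2.mul hV (eqv_gy_unif hV h)).add (((Eqv.cst W.a₁).mul hV (eqv_gx_unif hV h)).mul
      hV hs)).add ((Eqv.cst W.a₃).mul hV (hs.pow hV 3)) using 1 <;> ring
  rw [Gfun_eq]
  convert hg.mul hV ((Eqv.cst (V := V) (1 : K)).add hd0) using 1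
  · rw [map_one]; ring
  · ring

end TwoInvertible

variable [IsAlgClosed K]

section Invariant

variable (C : AddSubgroup W.Point)

/-- An invariant function regular outside `C`. -/
structure IsInv (z : FF W) : Prop where
  inv : ∀ Q ∈ C, τ Q z = z
  reg : ∀ (V : ValuationSubring (FF W)) (A : W.Point), IsPlace V → Red V P₀ A → A ∉ C → z ∈ V

variable {C}

lemma isInv_cst (c : K) : IsInv C (cst W c) :=
  ⟨fun _ _ => AlgHom.commutes _ c, fun _ _ hV _ _ => hV.cst_mem c⟩

/-- Invariant regular functions are closed under sums. -/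
lemma IsInv.add {z z' : FF W} (h : IsInv C z) (h' : IsInv C z') : IsInv C (z + z') :=
  ⟨fun Q hQ => by rw [map_add, h.inv Q hQ, h'.inv Q hQ],
    fun V A hV hA hC => add_mem (h.reg V A hV hA hC) (h'.reg V A hV hA hC)⟩

/-- Invariant regular functions are closed under products. -/
lemma IsInv.mul {z z' : FF W} (h : IsInv C z) (h' : IsInv C z') : IsInv C (z * z') :=
  ⟨fun Q hQ => by rw [map_mul, h.inv Q hQ, h'.inv Q hQ],
    fun V A hV hA hC => mul_mem (h.reg V A hV hA hC) (h'.reg V A hV hA hC)⟩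

/-- Invariant regular functions are closed under `z - c z'`. -/
lemma IsInv.sub_smul {z z' : FF W} (h : IsInv C z) (c : K) (h' : IsInv C z') :
    IsInv C (z - cst W c * z') := by
  rw [sub_eq_add_neg, ← neg_mul, ← map_neg]
  exact h.add ((isInv_cst _).mul h')

/-- An invariant function, regular outside `C` and at infinity, is constant. -/
lemma eq_cst_of_atInf {z : FF W} (hz : IsInv C z) {c : K} (hc : AtInf z c) : z = cst W c := by
  obtain ⟨d, hd⟩ := exists_cst_of_invariant C hz.inv fun V A hV hA hAC => by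
    rcases hAC with rfl | hC
    · exact (hc V hV hA).mem hV
    · exact hz.reg V A hV hA hC
  obtain ⟨V, hV, h⟩ := exists_place_infinity (W := W)
  subst hd
  rw [(Eqv.cst d).unique hV (hc V hV h)]

variable (C) [Finite C]

lemma isInv_Xfun : IsInv C (Xfun C) :=
  ⟨fun _ hQ => τ_Xfun C hQ, fun _ _ hV hA hC => (eqv_Xfun hV hA hC).mem hV⟩

lemma isInv_Gfun : IsInv C (Gfun C) :=
  ⟨fun _ hQ => τ_Gfun C hQ, fun _ _ hV hA hC => (eqv_Gfun hV hA hC).mem hV⟩

variable {C} [NeZero (2 : K)]

/-- `t` with a simple pole on each point of `C` cannot exist. -/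
theorem not_atInf_simple_pole (hodd : Odd (Nat.card C)) {t : FF W} (ht : IsInv C t) {γ : K}
    (hγ : AtInf (t * unif) γ) : γ = 0 := by
  by_contra h0
  obtain ⟨V₀, hV₀, hV₀'⟩ := exists_place_infinity (W := W)
  have htr : Transcendental K t := fun halg => by
    obtain ⟨d, rfl⟩ := exists_cst_of_isAlgebraic W halg
    exact h0 ((hγ V₀ hV₀ hV₀').unique hV₀
      (by simpa using (Eqv.cst d).mul hV₀ (eqv_unif hV₀ hV₀')))
  have hpow : ∀ n : ℕ, AtInf (t ^ n * unif ^ n) (γ ^ n) := fun n V hV h => by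
    rw [← mul_pow]; exact (hγ V hV h).pow hV n
  have hγ1 : AtInf (t * unif ^ 1) γ := by simpa using hγ
  -- `Xfun` is quadratic in `t`
  obtain ⟨b₁, hb₁⟩ := sub_lower (n := 1) (fun V hV h => eqv_Xfun_unif C hV h) (hpow 2)
    (pow_ne_zero 2 h0)
  obtain ⟨c₁, hc₁⟩ := sub_lower (n := 0) hb₁ hγ1 h0
  have ht2 : IsInv C (t ^ 2) := by rw [sq]; exact ht.mul ht
  have hX := eq_cst_of_atInf (((isInv_Xfun C).sub_smul _ ht2).sub_smul _ ht) hc₁.of_pow_zero
  set qa : K := 1 / γ ^ 2 with hqa
  set qb : K := b₁ / γ with hqb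
  have hXp : Xfun C =
      aeval t (Polynomial.C qa * X ^ 2 + Polynomial.C qb * X + Polynomial.C c₁) := by
    simp only [map_add, map_mul, map_pow, aeval_X, aeval_C]
    linear_combination hX
  -- `Gfun` is cubic in `t`
  obtain ⟨b₂, hb₂⟩ := sub_lower (n := 2) (fun V hV h => eqv_Gfun_unif C hV h) (hpow 3)
    (pow_ne_zero 3 h0)
  obtain ⟨b₃, hb₃⟩ := sub_lower (n := 1) hb₂ (hpow 2) (pow_ne_zero 2 h0)
  obtain ⟨c₂, hc₂⟩ := sub_lower (n := 0) hb₃ hγ1 h0
  have ht3 : IsInv C (t ^ 3) := by rw [pow_succ]; exact ht2.mul ht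
  have hG := eq_cst_of_atInf ((((isInv_Gfun C).sub_smul _ ht3).sub_smul _ ht2).sub_smul _ ht)
    hc₂.of_pow_zero
  set Gp : K[X] := Polynomial.C (2 / γ ^ 3) * X ^ 3 + Polynomial.C (b₂ / γ ^ 2) * X ^ 2
    + Polynomial.C (b₃ / γ) * X + Polynomial.C c₂ with hGp
  have hGt : Gfun C = aeval t Gp := by
    simp only [hGp, map_add, map_mul, map_pow, aeval_X, aeval_C]
    linear_combination hG
  set q : K[X] := Polynomial.C qa * X ^ 2 + Polynomial.C qb * X + Polynomial.C c₁ with hq
  have hid : (FV C).comp q = Gp ^ 2 := by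
    refine sub_eq_zero.mp (transcendental_iff.mp htr _ ?_)
    rw [map_sub, aeval_comp, ← hXp, map_pow, ← hGt, Gfun_sq, sub_self]
  have hqa0 : qa ≠ 0 := div_ne_zero one_ne_zero (pow_ne_zero 2 h0)
  -- every root of `FV` is the critical value of `q`
  have key : ∀ e : K, (FV C).IsRoot e → e = q.eval (-qb / (2 * qa)) := by
    intro e he
    obtain ⟨r, hr⟩ := IsAlgClosed.exists_root (Polynomial.C qa * X ^ 2 + Polynomial.C qb * X
      + Polynomial.C (c₁ - e)) (by rw [degree_quadratic hqa0]; decide)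
    have hqr : q.eval r = e := by
      simp only [IsRoot, eval_add, eval_mul, eval_C, eval_pow, eval_X] at hr
      simp only [hq, eval_add, eval_mul, eval_C, eval_pow, eval_X]
      linear_combination hr
    have hG0 : Gp.eval r = 0 := by
      have := congr_arg (eval r) hid
      rw [eval_comp, hqr, he, eval_pow] at this
      exact pow_eq_zero_iff two_ne_zero |>.mp this.symm
    have hder := congr_arg (eval r) (congr_arg derivative hid)
    rw [derivative_comp, eval_mul, eval_comp, hqr, derivative_pow, eval_mul, eval_mul,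
      eval_pow, hG0] at hder
    simp at hder
    have hFV : (derivative (FV C)).eval e ≠ 0 := by
      intro hd
      have hFV0 : FV C ≠ 0 := fun h1 => by
        have h3 := congr_arg (coeff · 3) h1
        simp [FV] at h3
        exact two_ne_zero (α := K) (mul_self_eq_zero.mp (by linear_combination h3))
      obtain ⟨p₁, p₂, p₃, h12, h13, h23, r1, r2, r3⟩ := exists_three_roots_FV hodd
      have hdeg : (FV C).natDegree ≤ 3 := by rw [FV]; compute_degree
      have hmult : 1 < (FV C).rootMultiplicity e :=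
        (one_lt_rootMultiplicity_iff_isRoot hFV0).mpr ⟨he, hd⟩
      classical
      have hle := (card_roots' (FV C)).trans hdeg
      rw [← Multiset.toFinset_sum_count_eq] at hle
      have hsub : ({p₁, p₂, p₃} : Finset K) ⊆ (FV C).roots.toFinset := by
        intro x hx
        simp only [Finset.mem_insert, Finset.mem_singleton] at hx
        rw [Multiset.mem_toFinset, mem_roots hFV0]
        rcases hx with rfl | rfl | rfl <;> assumption
      have h4 : (FV C).roots.toFinset.card < ∑ x ∈ (FV C).roots.toFinset, (FV C).roots.count x := by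
        rw [Finset.card_eq_sum_ones]
        refine Finset.sum_lt_sum (fun x hx => Nat.one_le_iff_ne_zero.mpr
          (Multiset.count_ne_zero.mpr (Multiset.mem_toFinset.mp hx))) ⟨e, ?_, ?_⟩
        · rw [Multiset.mem_toFinset, mem_roots hFV0]; exact he
        · rwa [count_roots]
      have h5 := Finset.card_le_card hsub
      rw [Finset.card_eq_three.mpr ⟨p₁, p₂, p₃, h12, h13, h23, rfl⟩] at h5
      omega
    have hq' := hder.resolve_right hFV
    rw [← hqr]
    congr 1
    simp [hq] at hq'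
    rw [eq_div_iff (mul_ne_zero two_ne_zero hqa0)]
    linear_combination hq'
  obtain ⟨p, r, -, hpr, -, -, hp, hr, -⟩ := exists_three_roots_FV hodd
  exact hpr ((key p hp).trans (key r hr).symm)

/-- An invariant function with at most triple poles on `C` is a combination of `1`, `X`, `G`. -/
theorem exists_combination (hodd : Odd (Nat.card C)) {z : FF W} (hz : IsInv C z) {α : K}
    (hα : AtInf (z * unif ^ 3) α) :
    ∃ b c : K, z = cst W (α / 2) * Gfun C + cst W b * Xfun C + cst W c := by
  obtain ⟨b₁, hb₁⟩ := sub_lower (n := 2) hα (fun V hV h => eqv_Gfun_unif C hV h) two_ne_zero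
  obtain ⟨b₂, hb₂⟩ := sub_lower (n := 1) hb₁ (fun V hV h => eqv_Xfun_unif C hV h) one_ne_zero
  have hw := (hz.sub_smul (α / 2) (isInv_Gfun C)).sub_smul (b₁ / 1) (isInv_Xfun C)
  have h0 := not_atInf_simple_pole hodd hw (by simpa using hb₂)
  subst h0
  obtain ⟨c, hc⟩ := exists_atInf_of_mul_unif (by simpa using hb₂)
  exact ⟨b₁ / 1, c, by linear_combination (eq_cst_of_atInf hw (by simpa using hc))⟩

end Invariant

end Fermat.Agent.Isogeny
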