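import Fermat.Agent.Isogeny.Field

/-!
# Places of the function field and reduction of points

A place is a nontrivial valuation subring of the function field containing the constants. We define
the value `Eqv V z c` of a function at a place, the reduction `Red V P A` of a point over the
function field, the generic point `P₀`, and show that a function lying in every place is constant.
-/

set_option autoImplicit false

open WeierstrassCurve Polynomial
open scoped Polynomial.Bivariate WeierstrassCurve.Affine

namespace Fermat.Agent.Isogeny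

universe u

variable {K : Type u} [Field K] {W : Affine K}

/-- A nontrivial valuation subring of the function field containing the constants. -/
structure IsPlace (V : ValuationSubring (FF W)) : Prop where
  cst_mem : ∀ c : K, cst W c ∈ V
  ne_top : V ≠ ⊤

section Eqv

/-- `z` takes the value `c` at the place `V`. -/
def Eqv (V : ValuationSubring (FF W)) (z : FF W) (c : K) : Prop :=
  z - cst W c ∈ V.nonunits

variable {V : ValuationSubring (FF W)} {z z' : FF W} {c c' : K}

/-- A constant takes its value. -/
lemma Eqv.cst (c : K) : Eqv V (cst W c) c := by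
  simp [Eqv, V.nonunits.zero_mem]

/-- A function with a value at a place is regular there. -/
lemma Eqv.mem (hV : IsPlace V) (h : Eqv V z c) : z ∈ V := by
  simpa using add_mem (ValuationSubring.nonunits_subset h) (hV.cst_mem c)

/-- A regular function times one vanishing at the place vanishes there. -/
lemma mul_mem_nonunits {a b : FF W} (ha : a ∈ V) (hb : b ∈ V.nonunits) : a * b ∈ V.nonunits := by
  obtain ⟨hb', hb⟩ := ValuationSubring.mem_nonunits_iff_exists_mem_maximalIdeal.mp hb
  exact ValuationSubring.coe_mem_nonunits_iff (a := ⟨a, ha⟩ * ⟨b, hb'⟩) |>.mpr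
    (Ideal.mul_mem_left _ _ hb)

/-- Values are additive. -/
lemma Eqv.add (h : Eqv V z c) (h' : Eqv V z' c') : Eqv V (z + z') (c + c') := by
  unfold Eqv at *
  convert V.nonunits.add_mem h h' using 1
  simp; ring

/-- Values respect differences. -/
lemma Eqv.sub (h : Eqv V z c) (h' : Eqv V z' c') : Eqv V (z - z') (c - c') := by
  unfold Eqv at *
  convert V.nonunits.sub_mem h h' using 1
  simp; ring

/-- Values respect negation. -/
lemma Eqv.neg (h : Eqv V z c) : Eqv V (-z) (-c) := by
  unfold Eqv at *
  convert V.nonunits.neg_mem h using 1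
  simp; ring

/-- Values are multiplicative. -/
lemma Eqv.mul (hV : IsPlace V) (h : Eqv V z c) (h' : Eqv V z' c') :
    Eqv V (z * z') (c * c') := by
  have hz := h.mem hV
  unfold Eqv at *
  convert V.nonunits.add_mem (mul_mem_nonunits hz h') (mul_mem_nonunits (hV.cst_mem c') h) using 1
  simp; ring

/-- Values respect finite sums. -/
lemma Eqv.sum {ι : Type*} (s : Finset ι) {f : ι → FF W} {g : ι → K}
    (h : ∀ i ∈ s, Eqv V (f i) (g i)) : Eqv V (∑ i ∈ s, f i) (∑ i ∈ s, g i) := by
  induction s using Finset.cons_induction with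
  | empty => simp [Eqv, V.nonunits.zero_mem]
  | cons a s ha ih =>
    rw [Finset.sum_cons, Finset.sum_cons]
    exact (h a (Finset.mem_cons_self a s)).add (ih fun i hi => h i (Finset.mem_cons_of_mem hi))

/-- Values respect finite products. -/
lemma Eqv.prod (hV : IsPlace V) {ι : Type*} (s : Finset ι) {f : ι → FF W} {g : ι → K}
    (h : ∀ i ∈ s, Eqv V (f i) (g i)) : Eqv V (∏ i ∈ s, f i) (∏ i ∈ s, g i) := by
  induction s using Finset.cons_induction with
  | empty => simpa using Eqv.cst (V := V) 1
  | cons a s ha ih =>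
    rw [Finset.prod_cons, Finset.prod_cons]
    exact (h a (Finset.mem_cons_self a s)).mul hV (ih fun i hi => h i (Finset.mem_cons_of_mem hi))

/-- Values respect powers. -/
lemma Eqv.pow (hV : IsPlace V) (h : Eqv V z c) : ∀ n : ℕ, Eqv V (z ^ n) (c ^ n)
  | 0 => by simpa using Eqv.cst (V := V) 1
  | n + 1 => by rw [pow_succ, pow_succ]; exact (Eqv.pow hV h n).mul hV h

lemma one_notMem_nonunits (V : ValuationSubring (FF W)) : (1 : FF W) ∉ V.nonunits := by
  simp [ValuationSubring.mem_nonunits_iff]

lemma cst_notMem_nonunits (hV : IsPlace V) (hc : c ≠ 0) : cst W c ∉ V.nonunits := by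
  intro h
  apply one_notMem_nonunits V
  convert mul_mem_nonunits (hV.cst_mem c⁻¹) h using 1
  rw [← map_mul, inv_mul_cancel₀ hc, map_one]

/-- A function takes at most one value at a place. -/
lemma Eqv.unique (hV : IsPlace V) (h : Eqv V z c) (h' : Eqv V z c') : c = c' := by
  by_contra hne
  apply cst_notMem_nonunits hV (sub_ne_zero.mpr (Ne.symm hne))
  unfold Eqv at *
  convert V.nonunits.sub_mem h h' using 1
  simp

/-- A function with a nonzero value is nonzero. -/
lemma Eqv.ne_zero (hV : IsPlace V) (h : Eqv V z c) (hc : c ≠ 0) : z ≠ 0 := by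
  rintro rfl
  exact hc (h.unique hV (by simpa using Eqv.cst (V := V) (0 : K)))

/-- Values respect inverses. -/
lemma Eqv.inv (hV : IsPlace V) (h : Eqv V z c) (hc : c ≠ 0) : Eqv V z⁻¹ c⁻¹ := by
  have hz0 := h.ne_zero hV hc
  have hzi : z⁻¹ ∈ V := by
    rcases V.mem_or_inv_mem z⁻¹ with h1 | h1
    · exact h1
    · by_contra h2
      have h3 : z ∈ V.nonunits := V.mem_nonunits_iff_or.mpr (Or.inr h2)
      apply cst_notMem_nonunits hV hc
      unfold Eqv at h
      simpa using V.nonunits.sub_mem h3 h
  unfold Eqv at *
  convert mul_mem_nonunits hzi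
    (V.nonunits.neg_mem (mul_mem_nonunits (hV.cst_mem c⁻¹) h)) using 1
  rw [map_inv₀]
  have : algebraMap K (FF W) c ≠ 0 := by simpa using hc
  field_simp
  ring

/-- Values respect quotients. -/
lemma Eqv.div (hV : IsPlace V) (h : Eqv V z c) (h' : Eqv V z' c') (hc : c' ≠ 0) :
    Eqv V (z / z') (c / c') := by
  rw [div_eq_mul_inv, div_eq_mul_inv]; exact h.mul hV (h'.inv hV hc)

/-- Products of two functions with poles at a place have poles there. -/
lemma mul_notMem {a b : FF W} (ha : a ∉ V) (hb : b ∉ V) : a * b ∉ V := by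
  intro h
  rcases eq_or_ne b 0 with rfl | hb0
  · exact hb V.zero_mem
  have h2 : a * b * b⁻¹ ∈ V := mul_mem h ((V.mem_or_inv_mem b).resolve_left hb)
  rw [mul_assoc, mul_inv_cancel₀ hb0, mul_one] at h2
  exact ha h2

/-- The inverse of a function with a pole vanishes. -/
lemma inv_mem_nonunits_of_notMem {a : FF W} (ha : a ∉ V) : a⁻¹ ∈ V.nonunits :=
  V.inv_mem_nonunits_iff.mpr (Or.inr ha)

/-- Taking the value `0` is lying in the maximal ideal. -/
lemma eqv_zero_iff : Eqv V z 0 ↔ z ∈ V.nonunits := by simp [Eqv]

/-- Values respect polynomial evaluation. -/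
lemma eqv_eval (hV : IsPlace V) (p : K[X]) (h : Eqv V z c) : Eqv V (aeval z p) (p.eval c) := by
  induction p using Polynomial.induction_on' with
  | add p q hp hq => rw [map_add, eval_add]; exact hp.add hq
  | monomial n a => rw [aeval_monomial, eval_monomial]; exact (Eqv.cst a).mul hV (h.pow hV n)

/-- A function lying in every place is constant. -/
lemma exists_cst_of_forall_mem [IsAlgClosed K] {z : FF W}
    (h : ∀ V : ValuationSubring (FF W), IsPlace V → z ∈ V) : ∃ c : K, cst W c = z := by
  by_contra hz
  have ht : Transcendental K z := fun ha => hz (exists_cst_of_isAlgebraic W ha)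
  have hz0 : z ≠ 0 := fun h0 => hz ⟨0, by simp [h0]⟩
  have hti : Transcendental K z⁻¹ := fun ha => ht (by simpa using ha.inv)
  let A := (Algebra.adjoin K {z⁻¹}).toSubring
  let zi : A := ⟨z⁻¹, Algebra.subset_adjoin rfl⟩
  have hI : Ideal.span {zi} ≠ ⊤ := by
    rw [Ne, Ideal.span_singleton_eq_top, isUnit_iff_exists_inv]
    rintro ⟨⟨w, hw⟩, hzw⟩
    have hw' : w ∈ Algebra.adjoin K {z⁻¹} := hw
    rw [Algebra.adjoin_singleton_eq_range_aeval] at hw'
    obtain ⟨p, rfl⟩ := hw'
    have h1 : aeval z⁻¹ (X * p - 1) = 0 := by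
      rw [map_sub, map_mul, aeval_X, map_one, sub_eq_zero]
      exact congr_arg Subtype.val hzw
    have h2 := congr_arg (eval (0 : K)) (transcendental_iff.mp hti _ h1)
    simp at h2
  obtain ⟨V, hle, hnu⟩ := Ideal.image_subset_nonunits_valuationSubring _ hI
  have hzn : z ∉ V := (V.inv_mem_nonunits_iff.mp
    (hnu ⟨zi, Ideal.subset_span rfl, rfl⟩)).resolve_left hz0
  exact hzn (h V ⟨fun c => hle (Subalgebra.algebraMap_mem _ c),
    fun hV => hzn (hV ▸ ValuationSubring.mem_top z)⟩)

end Eqv

section Red

/-- The embedding of the constant points. -/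
noncomputable def ι [DecidableEq K] : W.Point →+ (WF W).Point :=
  Affine.Point.map (W' := W) (F := K) (K := FF W) (Algebra.ofId K _)

/-- The abscissa (junk value `0` at infinity). -/
def xc {R : Type*} [CommRing R] {E : Affine R} : E.Point → R
  | .zero => 0
  | .some x _ _ => x

/-- The ordinate (junk value `0` at infinity). -/
def yc {R : Type*} [CommRing R] {E : Affine R} : E.Point → R
  | .zero => 0
  | .some _ y _ => y

/-- `2 y + a₁ x + a₃` (junk value `0` at infinity). -/
def gc {R : Type*} [CommRing R] {E : Affine R} : E.Point → R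
  | .zero => 0
  | .some x y _ => 2 * y + E.a₁ * x + E.a₃

/-- The junk abscissa at infinity. -/
@[simp] lemma xc_zero {R : Type*} [CommRing R] {E : Affine R} : xc (0 : E.Point) = 0 := rfl
@[simp] lemma yc_zero {R : Type*} [CommRing R] {E : Affine R} : yc (0 : E.Point) = 0 := rfl
@[simp] lemma gc_zero {R : Type*} [CommRing R] {E : Affine R} : gc (0 : E.Point) = 0 := rfl

/-- `P` and `-P` have the same abscissa. -/
@[simp] lemma xc_neg {R : Type*} [CommRing R] {E : Affine R} (P : E.Point) :
    xc (-P) = xc P := by
  cases P <;> rfl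

/-- Negation changes the sign of `2 y + a₁ x + a₃`. -/
lemma gc_neg {R : Type*} [CommRing R] {E : Affine R} (P : E.Point) : gc (-P) = -gc P := by
  cases P with
  | zero => simp [← Affine.Point.zero_def]
  | some x y h => simp [gc, Affine.negY]; ring

/-- `P` reduces to the point at infinity at the place `V`. -/
def AtInfinity (V : ValuationSubring (FF W)) : (WF W).Point → Prop
  | .zero => True
  | .some x _ _ => x ∉ V

/-- The point `P` over the function field reduces to `A` at the place `V`. -/
def Red (V : ValuationSubring (FF W)) (P : (WF W).Point) : W.Point → Prop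
  | .zero => AtInfinity V P
  | .some a b _ => P ≠ 0 ∧ Eqv V (xc P) a ∧ Eqv V (yc P) b

variable {V : ValuationSubring (FF W)} {P : (WF W).Point} {A : W.Point}

/-- A constant point reduces to itself. -/
lemma red_ι [DecidableEq K] (Q : W.Point) : Red V (ι Q) Q := by
  cases Q with
  | zero => trivial
  | some a b h => exact ⟨Affine.Point.some_ne_zero _, Eqv.cst a, Eqv.cst b⟩

/-- Reduction at a place is unique. -/
lemma Red.unique (hV : IsPlace V) {A' : W.Point} (h : Red V P A) (h' : Red V P A') :
    A = A' := by
  cases A with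
  | zero =>
    cases A' with
    | zero => rfl
    | some a b _ =>
      cases P with
      | zero => exact absurd rfl h'.1
      | some x y _ => exact absurd (h'.2.1.mem hV) h
  | some a b _ =>
    cases A' with
    | zero =>
      cases P with
      | zero => exact absurd rfl h.1
      | some x y _ => exact absurd (h.2.1.mem hV) h'
    | some a' b' _ =>
      obtain rfl := h.2.1.unique hV h'.2.1
      obtain rfl := h.2.2.unique hV h'.2.2
      rfl

/-- A point with affine reduction is affine. -/
lemma Red.ne_zero {a b : K} {h : W.Nonsingular a b} (hr : Red V P (.some a b h)) : P ≠ 0 :=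
  hr.1

/-- The abscissa takes the abscissa of the reduction as value. -/
lemma Red.eqv_xc (hA : A ≠ 0) (h : Red V P A) : Eqv V (xc P) (xc A) := by
  cases A with
  | zero => exact absurd rfl hA
  | some a b _ => exact h.2.1

/-- The ordinate takes the ordinate of the reduction as value. -/
lemma Red.eqv_yc (hA : A ≠ 0) (h : Red V P A) : Eqv V (yc P) (yc A) := by
  cases A with
  | zero => exact absurd rfl hA
  | some a b _ => exact h.2.2

/-- `2 y + a₁ x + a₃` takes its value at the reduction. -/
lemma Red.eqv_gc (hV : IsPlace V) (hA : A ≠ 0) (h : Red V P A) : Eqv V (gc P) (gc A) := by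
  cases A with
  | zero => exact absurd rfl hA
  | some a b _ =>
    cases P with
    | zero => exact absurd rfl h.1
    | some x y _ =>
      exact ((((by simpa only [map_ofNat] using Eqv.cst (V := V) (2 : K)) : Eqv V 2 2).mul hV
        h.2.2).add
        ((Eqv.cst W.a₁).mul hV h.2.1)).add (Eqv.cst W.a₃)

/-- A point with regular abscissa has regular ordinate. -/
lemma y_mem_of_x_mem (hV : IsPlace V) {x y : FF W} (h : (WF W).Equation x y) (hx : x ∈ V) :
    y ∈ V := by
  by_contra hy
  have he := (Affine.equation_iff ..).mp h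
  simp only [WeierstrassCurve.baseChange, map_a₁, map_a₂, map_a₃, map_a₄, map_a₆] at he
  have hl : cst W W.a₁ * x + cst W W.a₃ ∈ V :=
    add_mem (mul_mem (hV.cst_mem _) hx) (hV.cst_mem _)
  have hy' : y + (cst W W.a₁ * x + cst W W.a₃) ∉ V := fun h1 =>
    hy (by simpa using sub_mem h1 hl)
  apply mul_notMem hy hy'
  rw [show y * (y + (cst W W.a₁ * x + cst W W.a₃)) = x ^ 3 + cst W W.a₂ * x ^ 2 + cst W W.a₄ * x
    + cst W W.a₆ by linear_combination he]
  exact add_mem (add_mem (add_mem (pow_mem hx 3) (mul_mem (hV.cst_mem _) (pow_mem hx 2)))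
    (mul_mem (hV.cst_mem _) hx)) (hV.cst_mem _)

variable [W.IsElliptic]

instance : (WF W).IsElliptic := by
  unfold WF Affine.baseChange WeierstrassCurve.baseChange; infer_instance

/-- The generic point is nonsingular. -/
lemma nonsingular_gxy : (WF W).Nonsingular (gx W) (gy W) :=
  (Affine.equation_iff_nonsingular ..).mp (equation_gxy W)

/-- The generic point. -/
noncomputable def P₀ : (WF W).Point := .some _ _ nonsingular_gxy

/-- If the abscissa of a point has a value at `V`, the point has a reduction. -/
lemma exists_red_of_eqv [IsAlgClosed K] (hV : IsPlace V) {x y : FF W}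
    (h : (WF W).Nonsingular x y) {a : K} (hx : Eqv V x a) :
    ∃ b : K, ∃ hab : W.Nonsingular a b, Red V (.some x y h) (.some a b hab) := by
  have hy := y_mem_of_x_mem hV h.1 (hx.mem hV)
  obtain ⟨b, hb⟩ := IsAlgClosed.exists_root (C 1 * X ^ 2 + C (W.a₁ * a + W.a₃) * X
    + C (-(a ^ 3 + W.a₂ * a ^ 2 + W.a₄ * a + W.a₆)))
    (by rw [degree_quadratic one_ne_zero]; decide)
  simp only [map_one, one_mul, IsRoot, eval_add, eval_pow, eval_X, eval_mul, eval_C] at hb
  set b' : K := -b - W.a₁ * a - W.a₃ with hb'
  have he := (Affine.equation_iff ..).mp h.1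
  simp only [WeierstrassCurve.baseChange, map_a₁, map_a₂, map_a₃, map_a₄, map_a₆] at he
  have hprod : (y - cst W b) * (y - cst W b') ∈ V.nonunits := by
    have h1 : Eqv V (cst W (W.a₁ * a) * y - cst W W.a₁ * x * y + x ^ 3 + cst W W.a₂ * x ^ 2
        + cst W W.a₄ * x + cst W W.a₆ - cst W (a ^ 3 + W.a₂ * a ^ 2 + W.a₄ * a + W.a₆)) 0 := by
      rw [eqv_zero_iff]
      rw [show cst W (W.a₁ * a) * y - cst W W.a₁ * x * y + x ^ 3 + cst W W.a₂ * x ^ 2
        + cst W W.a₄ * x + cst W W.a₆ - cst W (a ^ 3 + W.a₂ * a ^ 2 + W.a₄ * a + W.a₆) =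
        (x ^ 2 + x * cst W a + cst W a ^ 2 + cst W W.a₂ * (x + cst W a) + cst W W.a₄
          - cst W W.a₁ * y) * (x - cst W a) by simp; ring]
      refine mul_mem_nonunits ?_ hx
      have hxm := hx.mem hV
      exact sub_mem (add_mem (add_mem (add_mem (add_mem (pow_mem hxm 2)
        (mul_mem hxm (hV.cst_mem a))) (pow_mem (hV.cst_mem a) 2))
        (mul_mem (hV.cst_mem _) (add_mem hxm (hV.cst_mem a)))) (hV.cst_mem _))
        (mul_mem (hV.cst_mem _) hy)
    rw [eqv_zero_iff] at h1
    convert h1 using 1
    have hb2 := congr_arg (cst W) hb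
    simp only [hb', map_add, map_sub, map_neg, map_mul, map_pow, map_zero] at hb2 ⊢
    linear_combination he - hb2
  have hor : Eqv V y b ∨ Eqv V y b' := by
    by_contra! hne
    have hu : ∀ c, y - cst W c ∈ V := fun c => sub_mem hy (hV.cst_mem c)
    simp only [Eqv, V.mem_nonunits_iff, not_lt] at hne
    have h2 := V.mem_nonunits_iff.mp hprod
    rw [map_mul] at h2
    exact absurd h2 (not_lt.mpr (one_le_mul hne.1 hne.2))
  have hb0 : W.Equation a b := by rw [Affine.equation_iff]; linear_combination hb
  rcases hor with hc | hc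
  · exact ⟨b, (Affine.equation_iff_nonsingular ..).mp hb0, Affine.Point.some_ne_zero _, hx, hc⟩
  · refine ⟨b', (Affine.equation_iff_nonsingular ..).mp ?_, Affine.Point.some_ne_zero _, hx, hc⟩
    exact (Affine.equation_neg a b).mpr hb0

end Red

end Fermat.Agent.Isogeny
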