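import Fermat.Agent.Isogeny.Formulas

/-!
# Nonsingularity of Vélu's curve

For a subgroup of odd order, the cubic `FV C` has no repeated root, so the discriminant of Vélu's
quotient curve is nonzero.
-/

set_option autoImplicit false

open WeierstrassCurve Polynomial
open scoped Polynomial.Bivariate WeierstrassCurve.Affine

namespace Fermat.Agent.Isogeny

universe u

variable {K : Type u} [Field K] {W : Affine K} [DecidableEq K]
  (C : AddSubgroup W.Point) [Finite C]

/-- Vélu's abscissa is invariant under translation by the subgroup. -/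
lemma Xv_add {P R : W.Point} (hR : R ∈ C) : Xv C (P + R) = Xv C P := by
  rw [Xv, Xv, Finset.sum_sub_distrib, Finset.sum_sub_distrib,
    ← sum_Cf_add C (fun Q => xc (P + Q)) hR]
  simp only [add_comm, add_left_comm]

/-- `Gv` is invariant under translation by the subgroup. -/
lemma Gv_add {P R : W.Point} (hR : R ∈ C) : Gv C (P + R) = Gv C P := by
  rw [Gv, Gv, ← sum_Cf_add C (fun Q => gc (P + Q)) hR]
  simp only [add_comm, add_left_comm]

/-- Vélu's abscissa is even. -/
lemma Xv_neg (P : W.Point) : Xv C (-P) = Xv C P := by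
  rw [Xv, Xv, Finset.sum_sub_distrib, Finset.sum_sub_distrib, ← sum_Cf_neg C fun Q => xc (P + Q)]
  congr 1
  refine Finset.sum_congr rfl fun Q _ => ?_
  rw [← xc_neg (-P + Q), neg_add, neg_neg]

/-- `Gv` is odd. -/
lemma Gv_neg (P : W.Point) : Gv C (-P) = -Gv C P := by
  rw [Gv, Gv, ← sum_Cf_neg C fun Q => gc (P + Q), ← Finset.sum_neg_distrib]
  refine Finset.sum_congr rfl fun Q _ => ?_
  rw [show -P + Q = -(P + -Q) by rw [neg_add, neg_neg], gc_neg]

variable {C}

lemma xc_sub_ne_zero {P Q : W.Point} (hP : P ∉ C) (hQ : Q ∈ Cs C) : xc P - xc Q ≠ 0 := by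
  rw [mem_Cs] at hQ
  intro h
  cases P with
  | zero => exact hP (zero_mem C)
  | some x y hxy =>
    cases Q with
    | zero => exact hQ.1 rfl
    | some r s hrs =>
      rcases (Affine.Point.X_eq_iff (h₁ := hxy) (h₂ := hrs)).mp (sub_eq_zero.mp h) with e | e
      · exact hP (e ▸ hQ.2)
      · exact hP (e ▸ neg_mem hQ.2)

/-- A subgroup of odd order has no element of order two. -/
lemma ne_neg_of_mem_Cs (hodd : Odd (Nat.card C)) {Q : W.Point} (hQ : Q ∈ Cs C) : Q ≠ -Q := by
  rw [mem_Cs] at hQ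
  intro h
  have h2 : (2 : ℕ) • (⟨Q, hQ.2⟩ : C) = 0 :=
    Subtype.ext (by simpa [two_nsmul] using eq_neg_iff_add_eq_zero.mp h)
  obtain ⟨k, hk⟩ := hodd
  have h3 : Nat.card C • (⟨Q, hQ.2⟩ : C) = 0 := card_nsmul_eq_zero'
  rw [hk, add_nsmul, one_nsmul, mul_nsmul, h2, smul_zero, zero_add] at h3
  exact hQ.1 (congr_arg Subtype.val h3)

/-- The nonzero part of the subgroup is stable under negation. -/
lemma neg_mem_Cs {Q : W.Point} (hQ : Q ∈ Cs C) : -Q ∈ Cs C := by
  rw [mem_Cs] at hQ ⊢; exact ⟨neg_ne_zero.mpr hQ.1, neg_mem hQ.2⟩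

variable (C)

/-- `∏_{R ∈ C \ 0} (X - x_R)`. -/
noncomputable def Dp : K[X] := ∏ R ∈ Cs C, (X - Polynomial.C (xc R))

/-- `Dp` with one factor removed. -/
noncomputable def Dp₁ (Q : W.Point) : K[X] := ∏ R ∈ (Cs C).erase Q, (X - Polynomial.C (xc R))

/-- `Dp` with the factors of `±Q` removed. -/
noncomputable def Dp₂ (Q : W.Point) : K[X] :=
  ∏ R ∈ ((Cs C).erase Q).erase (-Q), (X - Polynomial.C (xc R))

/-- The numerator of `Xv - e`. -/
noncomputable def Np (e : K) : K[X] :=
  (X - Polynomial.C e) * Dp C + Polynomial.C (2⁻¹) *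
    ∑ Q ∈ Cs C, (Polynomial.C (tq Q) * Dp₁ C Q + Polynomial.C (uq Q) * Dp₂ C Q)

variable {C}

lemma Dp_eq₁ {Q : W.Point} (hQ : Q ∈ Cs C) :
    Dp C = (X - Polynomial.C (xc Q)) * Dp₁ C Q :=
  (Finset.mul_prod_erase _ _ hQ).symm

lemma Dp_eq₂ (hodd : Odd (Nat.card C)) {Q : W.Point} (hQ : Q ∈ Cs C) :
    Dp C = (X - Polynomial.C (xc Q)) ^ 2 * Dp₂ C Q := by
  rw [Dp_eq₁ hQ, Dp₁, Dp₂, ← Finset.mul_prod_erase _ _ (Finset.mem_erase.mpr
    ⟨(ne_neg_of_mem_Cs hodd hQ).symm, neg_mem_Cs hQ⟩), xc_neg]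
  ring

lemma monic_Dp : (Dp C).Monic := monic_prod_of_monic _ _ fun _ _ => monic_X_sub_C _

lemma natDegree_Dp : (Dp C).natDegree = (Cs C).card := by
  rw [Dp, natDegree_prod _ _ fun _ _ => X_sub_C_ne_zero _]
  simp

lemma card_Cs : (Cs C).card + 1 = Nat.card C := by
  rw [Cs, Finset.card_erase_add_one ((mem_Cf C).mpr (zero_mem C)), card_Cf]

/-- The numerator of `Xv - e` is monic of degree the order of the subgroup. -/
lemma monic_natDegree_Np (_hodd : Odd (Nat.card C)) (e : K) :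
    (Np C e).Monic ∧ (Np C e).natDegree = Nat.card C := by
  have h1 : ((X - Polynomial.C e) * Dp C).natDegree = Nat.card C := by
    rw [(monic_X_sub_C e).natDegree_mul monic_Dp, natDegree_X_sub_C, natDegree_Dp, ← card_Cs,
      add_comm]
  have hm : ((X - Polynomial.C e) * Dp C).Monic := (monic_X_sub_C e).mul monic_Dp
  have h2 : (Polynomial.C (2⁻¹ : K) *
      ∑ Q ∈ Cs C, (Polynomial.C (tq Q) * Dp₁ C Q + Polynomial.C (uq Q) * Dp₂ C Q)).natDegree <
      Nat.card C := by
    refine lt_of_le_of_lt ((natDegree_C_mul_le _ _).trans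
      (natDegree_sum_le_of_forall_le _ _ (n := (Cs C).card) fun Q hQ => ?_))
      (by rw [← card_Cs]; omega)
    refine (natDegree_add_le _ _).trans (max_le ((natDegree_C_mul_le _ _).trans ?_)
      ((natDegree_C_mul_le _ _).trans ?_))
    · exact (natDegree_prod_le _ _).trans (le_trans (by simp) (Finset.card_erase_le (a := Q)))
    · exact (natDegree_prod_le _ _).trans (le_trans (by simp)
        ((Finset.card_erase_le (a := -Q)).trans (Finset.card_erase_le (a := Q))))
  have h3 := degree_lt_degree (h2.trans_eq h1.symm)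
  exact ⟨hm.add_of_left h3, (natDegree_add_eq_left_of_degree_lt h3).trans h1⟩

/-- The numerator of `Xv - e` is nonzero. -/
lemma Np_ne_zero (hodd : Odd (Nat.card C)) (e : K) : Np C e ≠ 0 :=
  (monic_natDegree_Np hodd e).1.ne_zero

lemma eval_Dp_ne_zero {P : W.Point} (hP : P ∉ C) : (Dp C).eval (xc P) ≠ 0 := by
  rw [Dp, eval_prod]
  refine Finset.prod_ne_zero_iff.mpr fun R hR => ?_
  rw [eval_sub, eval_X, eval_C]
  exact xc_sub_ne_zero hP hR

lemma derivative_Np (hodd : Odd (Nat.card C)) (e : K) :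
    derivative (Np C e) * Dp C - Np C e * derivative (Dp C) = Dp C ^ 2 + Polynomial.C (2⁻¹) *
      ∑ Q ∈ Cs C, (-(Polynomial.C (tq Q) * Dp₁ C Q ^ 2)
        - 2 * Polynomial.C (uq Q) * (X - Polynomial.C (xc Q)) * Dp₂ C Q ^ 2) := by
  simp only [Np, derivative_add, derivative_mul, derivative_sub, derivative_X, derivative_C,
    derivative_sum, sub_zero, zero_mul, zero_add, add_mul, mul_assoc, Finset.sum_mul]
  rw [show ∀ a b c d f : K[X], 1 * c + a + b - (d + f) = (c + (a - d)) + (b - f)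
    from fun a b c d f => by ring]
  congr 1
  · ring
  · rw [← mul_sub, ← Finset.sum_sub_distrib]
    congr 1
    refine Finset.sum_congr rfl fun Q hQ => ?_
    have e1 := Dp_eq₁ hQ
    have e2 := Dp_eq₂ hodd hQ
    have d1 := congr_arg derivative e1
    have d2 := congr_arg derivative e2
    simp only [derivative_mul, derivative_pow, derivative_sub, derivative_X, derivative_C,
      sub_zero, one_mul, mul_one, Nat.cast_ofNat, map_ofNat] at d1 d2
    linear_combination (Polynomial.C (tq Q) * derivative (Dp₁ C Q)) * e1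
      + (Polynomial.C (uq Q) * derivative (Dp₂ C Q)) * e2
      - (Polynomial.C (tq Q) * Dp₁ C Q) * d1 - (Polynomial.C (uq Q) * Dp₂ C Q) * d2

variable [NeZero (2 : K)] [W.IsElliptic] [IsAlgClosed K]

/-- The equation of Vélu's curve at a point. -/
lemma Gv_sq {P : W.Point} (hP : P ∉ C) : Gv C P ^ 2 = (FV C).eval (Xv C P) := by
  obtain ⟨V, hV, h⟩ := exists_place_at P
  exact ((eqv_Gfun hV h hP).pow hV 2).unique hV
    (Gfun_sq C ▸ eqv_eval hV (FV C) (eqv_Xfun hV h hP))

/-- Vélu's formula for the abscissa outside the subgroup. -/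
lemma Xv_eq {P : W.Point} (hP : P ∉ C) :
    Xv C P = xc P + (∑ Q ∈ Cs C, (tq Q / (xc P - xc Q) + uq Q / (xc P - xc Q) ^ 2)) / 2 := by
  obtain ⟨V, hV, h⟩ := exists_place_at P
  have hP0 : P ≠ 0 := fun h0 => hP (h0 ▸ zero_mem C)
  have hx : Eqv V (gx W) (xc P) := h.eqv_xc hP0
  refine (eqv_Xfun hV h hP).unique hV ?_
  rw [Xfun_eq, dlt]
  refine hx.add (Eqv.div hV (Eqv.sum _ fun Q hQ => ?_)
    (by simpa only [map_ofNat] using Eqv.cst (V := V) (2 : K)) two_ne_zero)
  have hd := xc_sub_ne_zero hP hQ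
  exact ((Eqv.cst _).div hV (hx.sub (Eqv.cst _)) hd).add
    ((Eqv.cst _).div hV ((hx.sub (Eqv.cst _)).pow hV 2) (pow_ne_zero 2 hd))

lemma Gv_eq {P : W.Point} (hP : P ∉ C) :
    Gv C P = gc P * (1 + -(∑ Q ∈ Cs C, (tq Q / (xc P - xc Q) ^ 2
      + 2 * uq Q / (xc P - xc Q) ^ 3)) / 2) := by
  obtain ⟨V, hV, h⟩ := exists_place_at P
  have hP0 : P ≠ 0 := fun h0 => hP (h0 ▸ zero_mem C)
  have hx : Eqv V (gx W) (xc P) := h.eqv_xc hP0
  refine (eqv_Gfun hV h hP).unique hV ?_
  rw [Gfun_eq, dlt', gg]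
  have h2 : Eqv V (2 : FF W) (2 : K) := by simpa only [map_ofNat] using Eqv.cst (V := V) (2 : K)
  refine (h.eqv_gc hV hP0).mul hV (Eqv.add (by simpa using Eqv.cst (V := V) (1 : K))
    ((Eqv.neg (Eqv.sum _ fun Q hQ => ?_)).div hV h2 two_ne_zero))
  have hd := xc_sub_ne_zero hP hQ
  exact ((Eqv.cst _).div hV ((hx.sub (Eqv.cst _)).pow hV 2) (pow_ne_zero 2 hd)).add
    ((h2.mul hV (Eqv.cst _)).div hV ((hx.sub (Eqv.cst _)).pow hV 3) (pow_ne_zero 3 hd))

/-- `Np` is the numerator of `Xv - e` over the denominator `Dp`. -/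
lemma eval_Np (hodd : Odd (Nat.card C)) {P : W.Point} (hP : P ∉ C) (e : K) :
    (Np C e).eval (xc P) = (Xv C P - e) * (Dp C).eval (xc P) := by
  rw [Np, Xv_eq hP]
  simp only [eval_add, eval_mul, eval_sub, eval_X, eval_C, eval_finsetSum]
  rw [show (xc P + (∑ Q ∈ Cs C, (tq Q / (xc P - xc Q) + uq Q / (xc P - xc Q) ^ 2)) / 2 - e)
      * (Dp C).eval (xc P) = (xc P - e) * (Dp C).eval (xc P) + 2⁻¹ *
      ((∑ Q ∈ Cs C, (tq Q / (xc P - xc Q) + uq Q / (xc P - xc Q) ^ 2)) * (Dp C).eval (xc P)) by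
    ring, Finset.sum_mul]
  congr 2
  refine Finset.sum_congr rfl fun Q hQ => ?_
  have hd := xc_sub_ne_zero hP hQ
  rw [add_mul]
  congr 1
  · rw [Dp_eq₁ hQ, eval_mul, eval_sub, eval_X, eval_C]; field_simp
  · rw [Dp_eq₂ hodd hQ, eval_mul, eval_pow, eval_sub, eval_X, eval_C]; field_simp

/-- At a point where `Xv = e`, `Gv = 0` and `g ≠ 0`, the numerator has a double root. -/
lemma eval_derivative_Np (hodd : Odd (Nat.card C)) {P : W.Point} (hP : P ∉ C) {e : K}
    (hX : Xv C P = e) (hG : Gv C P = 0) (hg : gc P ≠ 0) :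
    (derivative (Np C e)).eval (xc P) = 0 := by
  rw [Gv_eq hP, mul_eq_zero, or_iff_right hg] at hG
  have h1 := congr_arg (eval (xc P)) (derivative_Np hodd e)
  have hN : (Np C e).eval (xc P) = 0 := by rw [eval_Np hodd hP, hX, sub_self, zero_mul]
  simp only [eval_add, eval_sub, eval_mul, hN, zero_mul, sub_zero, eval_pow, eval_C,
    eval_finsetSum] at h1
  have h2 : (derivative (Np C e)).eval (xc P) * (Dp C).eval (xc P) = (Dp C).eval (xc P) ^ 2 *
      (1 + -(∑ Q ∈ Cs C, (tq Q / (xc P - xc Q) ^ 2 + 2 * uq Q / (xc P - xc Q) ^ 3)) / 2) := by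
    rw [h1, mul_add, mul_one, div_eq_inv_mul, mul_left_comm _ (2⁻¹ : K),
      ← Finset.sum_neg_distrib, Finset.mul_sum (Cs C) _ ((Dp C).eval (xc P) ^ 2)]
    congr 2
    refine Finset.sum_congr rfl fun Q hQ => ?_
    have hd := xc_sub_ne_zero hP hQ
    have f1 := congr_arg (eval (xc P)) (Dp_eq₁ hQ)
    have f2 := congr_arg (eval (xc P)) (Dp_eq₂ hodd hQ)
    simp only [eval_mul, eval_sub, eval_X, eval_C, eval_pow] at f1 f2
    simp only [eval_neg, eval_mul, eval_C, eval_pow, eval_X, eval_ofNat]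
    have g1 : (Dp₁ C Q).eval (xc P) = (Dp C).eval (xc P) / (xc P - xc Q) := by
      rw [f1]; field_simp
    have g2 : (Dp₂ C Q).eval (xc P) = (Dp C).eval (xc P) / (xc P - xc Q) ^ 2 := by
      rw [f2]; field_simp
    rw [g1, g2]
    field_simp
    ring
  rw [hG, mul_zero] at h2
  exact (mul_eq_zero.mp h2).resolve_right (eval_Dp_ne_zero hP)

/-- At most `#C` points map to a given point `(e, G = 0)`. -/
lemma card_le_of_Xv_eq (hodd : Odd (Nat.card C)) {e : K} (S : Finset W.Point)
    (hS : ∀ P ∈ S, P ∉ C ∧ Xv C P = e ∧ Gv C P = 0) : S.card ≤ Nat.card C := by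
  classical
  calc S.card = ∑ a ∈ S.image xc, (S.filter fun P => xc P = a).card :=
        Finset.card_eq_sum_card_image _ _
    _ ≤ ∑ a ∈ S.image xc, (Np C e).roots.count a := Finset.sum_le_sum fun a ha => ?_
    _ ≤ (Np C e).roots.card := by
        rw [← Multiset.toFinset_sum_count_eq]
        refine Finset.sum_le_sum_of_ne_zero fun a _ ha => ?_
        rw [Multiset.mem_toFinset]
        exact Multiset.count_ne_zero.mp ha
    _ ≤ (Np C e).natDegree := card_roots' _
    _ = Nat.card C := (monic_natDegree_Np hodd e).2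
  obtain ⟨P, hPS, rfl⟩ := Finset.mem_image.mp ha
  obtain ⟨hP, hX, hG⟩ := hS P hPS
  have hsub : S.filter (fun R => xc R = xc P) ⊆ {P, -P} := by
    intro R hR
    obtain ⟨hRS, hRx⟩ := Finset.mem_filter.mp hR
    have hR0 : R ≠ 0 := fun h => (hS R hRS).1 (h ▸ zero_mem C)
    cases R with
    | zero => exact absurd rfl hR0
    | some r s hrs =>
      cases P with
      | zero => exact absurd (zero_mem C) hP
      | some x y hxy =>
        rcases (Affine.Point.X_eq_iff (h₁ := hrs) (h₂ := hxy)).mp hRx with h | h <;> simp [h]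
  have hroot : (Np C e).IsRoot (xc P) := by
    rw [IsRoot, eval_Np hodd hP, hX, sub_self, zero_mul]
  rw [count_roots]
  by_cases hg : gc P = 0
  · have : -P = P := by
      cases P with
      | zero => rfl
      | some x y hxy =>
        simp only [Affine.Point.neg_some, Affine.Point.some.injEq, Affine.negY, true_and]
        rw [gc_some] at hg
        linear_combination -hg
    refine (Finset.card_le_card (t := {P}) fun R hR => ?_).trans ?_
    · simpa [this] using hsub hR
    · simpa [Nat.one_le_iff_ne_zero] using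
        (rootMultiplicity_pos (Np_ne_zero hodd e)).mpr hroot |>.ne'
  · refine (Finset.card_le_card hsub).trans (Finset.card_le_two.trans ?_)
    exact (one_lt_rootMultiplicity_iff_isRoot (Np_ne_zero hodd e)).mpr
      ⟨hroot, eval_derivative_Np hodd hP hX hG hg⟩

/-- Three roots of the cubic of the quotient curve. -/
lemma exists_three_roots_FV (hodd : Odd (Nat.card C)) :
    ∃ p q r : K, p ≠ q ∧ p ≠ r ∧ q ≠ r ∧ (FV C).IsRoot p ∧ (FV C).IsRoot q ∧
      (FV C).IsRoot r := by
  classical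
  -- the three points of order two
  have key : ∀ e : K, W.twoTorsionPolynomial.toPoly.IsRoot e →
      ∃ T : W.Point, T ≠ 0 ∧ -T = T ∧ xc T = e := by
    intro e he
    have h2 := two_ne_zero (α := K)
    simp only [WeierstrassCurve.twoTorsionPolynomial, Cubic.toPoly, IsRoot, eval_add, eval_mul,
      eval_C, eval_pow, eval_X, WeierstrassCurve.b₂, WeierstrassCurve.b₄,
      WeierstrassCurve.b₆] at he
    have h : W.Equation e (-(W.a₁ * e + W.a₃) / 2) := by
      rw [Affine.equation_iff]; field_simp; linear_combination -he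
    refine ⟨.some _ _ ((Affine.equation_iff_nonsingular ..).mp h), Affine.Point.some_ne_zero _,
      ?_, rfl⟩
    simp only [Affine.Point.neg_some, Affine.Point.some.injEq, Affine.negY, true_and]
    field_simp
    ring
  have hdisc := W.twoTorsionPolynomial_discr_ne_zero_of_isElliptic two_ne_zero.isUnit
  have ha : W.twoTorsionPolynomial.a ≠ 0 := by
    rw [show W.twoTorsionPolynomial.a = (2 : K) * 2 by
      simp [WeierstrassCurve.twoTorsionPolynomial]; norm_num]
    exact mul_ne_zero two_ne_zero two_ne_zero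
  obtain ⟨p, q, r, hpqr⟩ : ∃ p q r : K,
      (W.twoTorsionPolynomial.map (RingHom.id K)).roots = {p, q, r} :=
    (Cubic.splits_iff_roots_eq_three ha).mp (IsAlgClosed.splits _)
  obtain ⟨hpq, hpr, hqr⟩ := (Cubic.discr_ne_zero_iff_roots_ne ha hpqr).mp hdisc
  have hroot : ∀ e ∈ ({p, q, r} : Multiset K), W.twoTorsionPolynomial.toPoly.IsRoot e := by
    intro e he
    rw [← hpqr, Cubic.map_roots, Polynomial.map_id] at he
    exact isRoot_of_mem_roots he
  obtain ⟨T₁, h10, h1n, h1x⟩ := key p (hroot p (by simp))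
  obtain ⟨T₂, h20, h2n, h2x⟩ := key q (hroot q (by simp))
  obtain ⟨T₃, h30, h3n, h3x⟩ := key r (hroot r (by simp))
  have htor : ∀ T : W.Point, -T = T → T ∈ C → T = 0 := fun T hT hC => by
    by_contra h0
    exact ne_neg_of_mem_Cs hodd ((mem_Cs C).mpr ⟨h0, hC⟩) hT.symm
  have hnot : ∀ T : W.Point, T ≠ 0 → -T = T → T ∉ C := fun T h0 hT hC => h0 (htor T hT hC)
  have hG0 : ∀ T : W.Point, -T = T → Gv C T = 0 := fun T hT => by
    have h := Gv_neg C T
    rw [hT, eq_neg_iff_add_eq_zero, ← two_mul, mul_eq_zero] at h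
    exact h.resolve_left two_ne_zero
  have hne : ∀ T T' : W.Point, T ≠ 0 → -T = T → T' ≠ 0 → -T' = T' → T ≠ T' →
      Xv C T ≠ Xv C T' := by
    intro T T' h0 hT h0' hT' hTT hX
    have hdis : Disjoint ((Cf C).image (T + ·)) ((Cf C).image (T' + ·)) := by
      rw [Finset.disjoint_left]
      intro P h1 h2
      obtain ⟨R, hR, rfl⟩ := Finset.mem_image.mp h1
      obtain ⟨R', hR', hRR⟩ := Finset.mem_image.mp h2
      apply hTT
      rw [← sub_eq_zero]
      refine htor _ (by rw [neg_sub, sub_eq_add_neg, sub_eq_add_neg, hT, add_comm]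
                        exact congr_arg (T + ·) hT'.symm) ?_
      rw [show T - T' = R' - R by rw [sub_eq_sub_iff_add_eq_add, ← hRR, add_comm]]
      exact sub_mem ((mem_Cf C).mp hR') ((mem_Cf C).mp hR)
    have hcard := card_le_of_Xv_eq hodd (e := Xv C T)
      ((Cf C).image (T + ·) ∪ (Cf C).image (T' + ·)) ?_
    · rw [Finset.card_union_of_disjoint hdis,
        Finset.card_image_of_injective _ (add_right_injective T),
        Finset.card_image_of_injective _ (add_right_injective T'), card_Cf] at hcard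
      have : 0 < Nat.card C := Nat.card_pos
      omega
    · intro P hP
      rcases Finset.mem_union.mp hP with hP | hP <;>
      · obtain ⟨R, hR, rfl⟩ := Finset.mem_image.mp hP
        rw [mem_Cf] at hR
        refine ⟨fun hC => ?_, by simp [Xv_add C hR, hX],
          by simp [Gv_add C hR, hG0 T hT, hG0 T' hT']⟩
        have := sub_mem hC hR
        rw [add_sub_cancel_right] at this
        first
          | exact hnot _ h0 hT this
          | exact hnot _ h0' hT' this
  have hr : ∀ T : W.Point, T ≠ 0 → -T = T → (FV C).IsRoot (Xv C T) := fun T h0 hT => by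
    rw [IsRoot, ← Gv_sq (hnot T h0 hT), hG0 T hT, zero_pow two_ne_zero]
  refine ⟨_, _, _, hne T₁ T₂ h10 h1n h20 h2n ?_, hne T₁ T₃ h10 h1n h30 h3n ?_,
    hne T₂ T₃ h20 h2n h30 h3n ?_, hr _ h10 h1n, hr _ h20 h2n, hr _ h30 h3n⟩
  all_goals intro h
  · exact hpq (by rw [← h1x, ← h2x, h])
  · exact hpr (by rw [← h1x, ← h3x, h])
  · exact hqr (by rw [← h2x, ← h3x, h])

/-- Vélu's curve is elliptic. -/
theorem veluCurve_Δ_ne_zero (hodd : Odd (Nat.card C)) : (veluCurve C).Δ ≠ 0 := by
  obtain ⟨p, q, r, hpq, hpr, hqr, hp, hq, hr⟩ := exists_three_roots_FV hodd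
  rw [FV_eq] at hp hq hr
  simp only [IsRoot, Cubic.toPoly, eval_add, eval_mul, eval_C, eval_pow, eval_X] at hp hq hr
  set P := (veluCurve C).twoTorsionPolynomial with hP
  intro h0
  have hd : P.discr = 0 := by rw [hP, twoTorsionPolynomial_discr, h0, mul_zero]
  have hpq' := sub_ne_zero.mpr hpq
  have hpr' := sub_ne_zero.mpr hpr
  have hqr' := sub_ne_zero.mpr hqr
  have e1 : P.a * (p ^ 2 + p * q + q ^ 2) + P.b * (p + q) + P.c = 0 :=
    mul_left_cancel₀ hpq' (by linear_combination hp - hq)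
  have e2 : P.a * (p ^ 2 + p * r + r ^ 2) + P.b * (p + r) + P.c = 0 :=
    mul_left_cancel₀ hpr' (by linear_combination hp - hr)
  have hb : P.b = -P.a * (p + q + r) := mul_left_cancel₀ hqr' (by linear_combination e1 - e2)
  have hc : P.c = P.a * (p * q + p * r + q * r) := by
    rw [hb] at e1; linear_combination e1
  have hd' : P.d = -P.a * (p * q * r) := by
    rw [hb, hc] at hp; linear_combination hp
  have ha : P.a = (2 : K) * 2 := by
    simp [hP, WeierstrassCurve.twoTorsionPolynomial]; norm_num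
  rw [Cubic.discr, hb, hc, hd'] at hd
  have hprod : (P.a * P.a * (p - q) * (p - r) * (q - r)) ^ 2 = 0 := by linear_combination hd
  simp only [ha, pow_eq_zero_iff (two_ne_zero : (2 : ℕ) ≠ 0), mul_eq_zero, hpq', hpr', hqr',
    two_ne_zero, or_self] at hprod

end Fermat.Agent.Isogeny
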