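import Fermat.Agent.Isogeny.Places

/-!
# Reduction commutes with translation by constant points

If a point `P` over the function field reduces to `A` at a place, then `P + ι Q` reduces to `A + Q`
for every constant point `Q` (`red_add_ι`).
-/

set_option autoImplicit false

open WeierstrassCurve Polynomial
open scoped Polynomial.Bivariate WeierstrassCurve.Affine

namespace Fermat.Agent.Isogeny

universe u

variable {K : Type u} [Field K] {W : Affine K}
  {V : ValuationSubring (FF W)}

/-- The coefficients of the curve over its function field are constants. -/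
lemma WF_coeff :
    (WF W).a₁ = cst W W.a₁ ∧ (WF W).a₂ = cst W W.a₂ ∧ (WF W).a₃ = cst W W.a₃ ∧
      (WF W).a₄ = cst W W.a₄ ∧ (WF W).a₆ = cst W W.a₆ := ⟨rfl, rfl, rfl, rfl, rfl⟩

/-- A nonsingular constant point stays nonsingular over the function field. -/
lemma nonsingular_cst {a b : K} (h : W.Nonsingular a b) :
    (WF W).Nonsingular (cst W a) (cst W b) :=
  (W.baseChange_nonsingular (Algebra.ofId K (FF W)).injective ..).mpr h

lemma not_mem_addX {lam xP : FF W} {xq : K} (hV : IsPlace V) (hl : lam ∉ V) (hX : xP ∈ V) :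
    (WF W).addX xP (cst W xq) lam ∉ V := by
  intro h
  simp only [Affine.addX, WF_coeff] at h
  have h1 : lam + cst W W.a₁ ∉ V := fun h1 => hl (by simpa using sub_mem h1 (hV.cst_mem W.a₁))
  apply mul_notMem hl h1
  have := add_mem (add_mem (add_mem h (hV.cst_mem W.a₂)) hX) (hV.cst_mem xq)
  convert this using 1
  ring

lemma Red.nonsingular_cases {P : (WF W).Point} {A : W.Point} (h : Red V P A) (hA : A ≠ 0) :
    ∃ xP yP hP a b hA', P = .some xP yP hP ∧ A = .some a b hA' ∧ Eqv V xP a ∧ Eqv V yP b := by
  cases A with
  | zero => exact absurd rfl hA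
  | some a b hA' =>
    cases P with
    | zero => exact absurd rfl h.1
    | some xP yP hP => exact ⟨xP, yP, hP, a, b, hA', rfl, rfl, h.2.1, h.2.2⟩

variable [DecidableEq K]

/-- `ι` on affine points. -/
lemma ι_some {a b : K} (h : W.Nonsingular a b) :
    ι (.some a b h) = .some (cst W a) (cst W b) (nonsingular_cst h) := rfl

/-- Translation by a constant point, away from infinity. -/
lemma red_add_ι_of_some (hV : IsPlace V) {xP yP : FF W} (hP : (WF W).Nonsingular xP yP) {a b : K}
    (hA : W.Nonsingular a b) (hX : Eqv V xP a) (hY : Eqv V yP b) (Q : W.Point) :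
    Red V (.some xP yP hP + ι Q) (.some a b hA + Q) := by
  cases Q with
  | zero =>
    rw [← Affine.Point.zero_def, map_zero, add_zero, add_zero]
    exact ⟨Affine.Point.some_ne_zero _, hX, hY⟩
  | some r s hQ =>
    obtain ⟨e₁, e₂, e₃, e₄, e₆⟩ := WF_coeff (W := W)
    rw [ι_some]
    by_cases hXr : xP = cst W r
    · obtain rfl : a = r := hX.unique hV (hXr ▸ Eqv.cst r)
      subst hXr
      rcases Affine.Y_eq_of_X_eq hP.1
        (nonsingular_cst hQ).1 rfl with
        hy | hy
      · subst hy
        obtain rfl : b = s := hY.unique hV (Eqv.cst s)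
        rw [show (Affine.Point.some _ _ hP : (WF W).Point) = ι (.some a b hA) from rfl, ← map_add]
        exact red_ι _
      · have hy' : yP = cst W (W.negY a s) := by
          rw [hy]; simp [Affine.negY]
        subst hy'
        obtain rfl : b = W.negY a s := hY.unique hV (Eqv.cst _)
        rw [show (Affine.Point.some _ _ hP : (WF W).Point) = ι (.some a _ hA) from rfl,
          ← ι_some hQ, ← map_add]
        exact red_ι _
    rw [Affine.Point.add_of_X_ne hXr]
    set lam := (WF W).slope xP (cst W r) yP (cst W s) with hlam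
    have hlam' : lam = (yP - cst W s) / (xP - cst W r) := Affine.slope_of_X_ne hXr
    have hXr' : xP - cst W r ≠ 0 := sub_ne_zero.mpr hXr
    -- once the slope has a value, so has the sum
    have fin : ∀ l : K, W.slope a r b s = l → ¬(a = r ∧ b = W.negY r s) → Eqv V lam l →
        Red V (.some _ _ (Affine.nonsingular_add hP
          (nonsingular_cst hQ)
          fun h => hXr h.1)) (.some a b hA + .some r s hQ) := by
      intro l hl hne hlv
      rw [Affine.Point.add_some hne]
      refine ⟨Affine.Point.some_ne_zero _, ?_, ?_⟩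
      · show Eqv V ((WF W).addX xP (cst W r) lam) (W.addX a r (W.slope a r b s))
        simp only [hl, Affine.addX, e₁, e₂]
        exact ((((hlv.pow hV 2).add ((Eqv.cst _).mul hV hlv)).sub (Eqv.cst _)).sub hX).sub
          (Eqv.cst _)
      · show Eqv V ((WF W).addY xP (cst W r) yP lam) (W.addY a r b (W.slope a r b s))
        simp only [hl, Affine.addY, Affine.negY, Affine.negAddY, Affine.addX, e₁, e₂, e₃]
        have hx3 := ((((hlv.pow hV 2).add ((Eqv.cst W.a₁).mul hV hlv)).sub (Eqv.cst W.a₂)).sub
          hX).sub (Eqv.cst r)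
        exact ((((hlv.mul hV (hx3.sub hX)).add hY).neg).sub ((Eqv.cst W.a₁).mul hV hx3)).sub
          (Eqv.cst W.a₃)
    by_cases har : a = r
    swap
    · refine fin _ rfl (fun h => har h.1) ?_
      rw [hlam', Affine.slope_of_X_ne har]
      exact (hY.sub (Eqv.cst s)).div hV (hX.sub (Eqv.cst r)) (sub_ne_zero.mpr har)
    subst har
    have hey := (Affine.equation_iff ..).mp hP.1
    simp only [e₁, e₂, e₃, e₄, e₆] at hey
    have hes := congr_arg (cst W) ((Affine.equation_iff ..).mp hQ.1)
    simp only [map_add, map_mul, map_pow] at hes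
    -- the second expression of the slope
    set num : FF W := xP ^ 2 + xP * cst W a + cst W a ^ 2 + cst W W.a₂ * (xP + cst W a)
      + cst W W.a₄ - cst W W.a₁ * cst W s with hnum
    set den : FF W := yP + cst W s + cst W W.a₁ * xP + cst W W.a₃ with hden
    have key : lam * den = num := by
      rw [hlam', div_mul_eq_mul_div, div_eq_iff hXr', hnum, hden]
      linear_combination hey - hes
    have hnumv : Eqv V num (3 * a ^ 2 + 2 * W.a₂ * a + W.a₄ - W.a₁ * s) := by
      rw [hnum]
      convert (((((hX.pow hV 2).add (hX.mul hV (Eqv.cst a))).add ((Eqv.cst a).pow hV 2)).add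
        ((Eqv.cst W.a₂).mul hV (hX.add (Eqv.cst a)))).add (Eqv.cst W.a₄)).sub
          ((Eqv.cst W.a₁).mul hV (Eqv.cst s)) using 1
      ring
    have hdenv : Eqv V den (b + s + W.a₁ * a + W.a₃) :=
      ((hY.add (Eqv.cst s)).add ((Eqv.cst W.a₁).mul hV hX)).add (Eqv.cst W.a₃)
    by_cases hbs : b = W.negY a s
    swap
    · -- doubling
      obtain rfl : b = s := Affine.Y_eq_of_Y_ne hA.1 hQ.1 rfl hbs
      have hd0 : b + b + W.a₁ * a + W.a₃ ≠ 0 := by
        intro h0; apply hbs; rw [Affine.negY]; linear_combination h0
      refine fin _ rfl (fun h => hbs h.2) ?_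
      rw [show lam = num / den by rw [← key, mul_div_assoc, div_self (hdenv.ne_zero hV hd0),
          mul_one],
        Affine.slope_of_Y_ne rfl hbs]
      convert hnumv.div hV hdenv hd0 using 1
      rw [Affine.negY]
      ring
    · -- `A = -Q`
      rw [Affine.Point.add_of_Y_eq rfl hbs]
      show (WF W).addX xP (cst W a) lam ∉ V
      have hlV : lam ∉ V := by
        intro hl
        have hlX : Eqv V (lam * (xP - cst W a)) 0 := by
          rw [eqv_zero_iff]; exact mul_mem_nonunits hl hX
        rw [hlam', div_mul_cancel₀ _ hXr'] at hlX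
        have hb : b = s := sub_eq_zero.mp ((hY.sub (Eqv.cst s)).unique hV hlX)
        subst hb
        have hd0 : b + b + W.a₁ * a + W.a₃ = 0 := by
          rw [Affine.negY] at hbs; linear_combination hbs
        rw [hd0, eqv_zero_iff] at hdenv
        have hn0 : Eqv V num 0 := by
          rw [eqv_zero_iff, ← key]; exact mul_mem_nonunits hl hdenv
        have hn := hnumv.unique hV hn0
        rcases ((Affine.nonsingular_iff ..).mp hQ).2 with h1 | h1
        · exact h1 (by linear_combination -hn)
        · exact h1 (by linear_combination hd0)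
      exact not_mem_addX hV hlV (hX.mem hV)

variable [W.IsElliptic] [IsAlgClosed K]

/-- Reduction at a place commutes with translation by constant points. -/
theorem red_add_ι (hV : IsPlace V) {P : (WF W).Point} {A : W.Point} (h : Red V P A)
    (Q : W.Point) : Red V (P + ι Q) (A + Q) := by
  by_cases hA : A = 0
  swap
  · obtain ⟨xP, yP, hP, a, b, hA', rfl, rfl, hX, hY⟩ := h.nonsingular_cases hA
    exact red_add_ι_of_some hV hP hA' hX hY Q
  subst hA
  cases P with
  | zero =>
    rw [← Affine.Point.zero_def, zero_add, zero_add]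
    exact red_ι Q
  | some xP yP hP =>
    have hXV : xP ∉ V := h
    cases Q with
    | zero =>
      rw [← Affine.Point.zero_def, map_zero, add_zero, add_zero]
      exact h
    | some r s hQ =>
      obtain ⟨e₁, e₂, e₃, e₄, e₆⟩ := WF_coeff (W := W)
      rw [zero_add, ι_some]
      have hXr : xP ≠ cst W r := fun h1 => hXV (h1 ▸ hV.cst_mem r)
      rw [Affine.Point.add_of_X_ne hXr]
      set lam := (WF W).slope xP (cst W r) yP (cst W s) with hlam
      have hlam' : lam = (yP - cst W s) / (xP - cst W r) := Affine.slope_of_X_ne hXr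
      have hX0 : xP ≠ 0 := fun h1 => hXV (h1 ▸ V.zero_mem)
      have hXr' : xP - cst W r ≠ 0 := sub_ne_zero.mpr hXr
      set u : FF W := xP⁻¹ with hu
      set w : FF W := yP / xP ^ 2 with hw
      have huv : Eqv V u 0 := eqv_zero_iff.mpr (inv_mem_nonunits_of_notMem hXV)
      have hey := (Affine.equation_iff ..).mp hP.1
      simp only [e₁, e₂, e₃, e₄, e₆] at hey
      set rhs : FF W := u + cst W W.a₂ * u ^ 2 + cst W W.a₄ * u ^ 3 + cst W W.a₆ * u ^ 4
        with hrhs
      have hrhsv : Eqv V rhs 0 := by
        convert ((huv.add ((Eqv.cst W.a₂).mul hV (huv.pow hV 2))).add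
          ((Eqv.cst W.a₄).mul hV (huv.pow hV 3))).add
            ((Eqv.cst W.a₆).mul hV (huv.pow hV 4)) using 1
        ring
      set l : FF W := cst W W.a₁ * u + cst W W.a₃ * u ^ 2 with hl
      have hlv : Eqv V l 0 := by
        convert ((Eqv.cst W.a₁).mul hV huv).add ((Eqv.cst W.a₃).mul hV (huv.pow hV 2)) using 1
        ring
      have hweq : w * (w + l) = rhs := by
        rw [hrhs, hl, hw, hu]; field_simp; linear_combination hey
      have hwV : w ∈ V := by
        by_contra hwV
        apply mul_notMem hwV (fun (h1 : w + l ∈ V) => hwV (by simpa using sub_mem h1 (hlv.mem hV)))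
        rw [hweq]; exact hrhsv.mem hV
      have hw2 : w * w ∈ V.nonunits := by
        rw [show w * w = rhs - w * l by rw [← hweq]; ring]
        exact V.nonunits.sub_mem (eqv_zero_iff.mp hrhsv)
          (mul_mem_nonunits hwV (eqv_zero_iff.mp hlv))
      have hwv : Eqv V w 0 := by
        rw [eqv_zero_iff]
        by_contra hne
        have hwi : w⁻¹ ∈ V := by
          by_contra h1; exact hne (V.mem_nonunits_iff_or.mpr (Or.inr h1))
        have hw0 : w ≠ 0 := fun h1 => hne (h1 ▸ V.nonunits.zero_mem)
        apply hne
        convert mul_mem_nonunits hwi hw2 using 1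
        field_simp
      set x₃ : FF W := (WF W).addX xP (cst W r) lam with hx₃
      have hden : Eqv V ((1 - cst W r * u) ^ 2) 1 := by
        convert (((Eqv.cst (V := V) (1 : K))).sub ((Eqv.cst r).mul hV huv)).pow hV 2 using 1
        · rw [map_one]
        · ring
      have hkey : x₃ * (1 - cst W r * u) ^ 2 = cst W r
          + w * (-cst W W.a₃ - 2 * cst W s - cst W W.a₁ * cst W r)
          + u * (cst W W.a₄ - cst W W.a₁ * cst W s + cst W r ^ 2 + 2 * cst W W.a₂ * cst W r)
          + u ^ 2 * (cst W W.a₆ + cst W s ^ 2 + cst W W.a₁ * cst W r * cst W s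
            - cst W W.a₂ * cst W r ^ 2 - cst W r ^ 3) := by
        rw [hx₃, Affine.addX, e₁, e₂, hlam', hw, hu]
        field_simp
        linear_combination hey
      have hx : Eqv V x₃ r := by
        rw [show x₃ = x₃ * (1 - cst W r * u) ^ 2 / (1 - cst W r * u) ^ 2 by
          rw [mul_div_assoc, div_self (hden.ne_zero hV one_ne_zero), mul_one], hkey]
        have h2 : Eqv V (2 : FF W) 2 := by simpa only [map_ofNat] using Eqv.cst (V := V) (2 : K)
        have hnum := ((((Eqv.cst r).add (hwv.mul hV (((Eqv.cst W.a₃).neg.sub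
          (h2.mul hV (Eqv.cst s))).sub ((Eqv.cst W.a₁).mul hV (Eqv.cst r))))).add
          (huv.mul hV ((((Eqv.cst W.a₄).sub ((Eqv.cst W.a₁).mul hV (Eqv.cst s))).add
            ((Eqv.cst r).pow hV 2)).add ((h2.mul hV (Eqv.cst W.a₂)).mul hV (Eqv.cst r))))).add
          ((huv.pow hV 2).mul hV (((((Eqv.cst W.a₆).add ((Eqv.cst s).pow hV 2)).add
            (((Eqv.cst W.a₁).mul hV (Eqv.cst r)).mul hV (Eqv.cst s))).sub
            ((Eqv.cst W.a₂).mul hV ((Eqv.cst r).pow hV 2))).sub ((Eqv.cst r).pow hV 3))))
        convert hnum.div hV hden one_ne_zero using 1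
        ring
      obtain ⟨b, hrb, hred⟩ := exists_red_of_eqv hV (Affine.nonsingular_add hP
        (nonsingular_cst hQ)
        fun h1 => hXr h1.1) hx
      rcases Affine.Y_eq_of_X_eq hrb.1 hQ.1 rfl with hb | hb
      · subst hb; exact hred
      · -- `b = -s` forces `2 Q = 0`
        subst hb
        have h2 := red_add_ι_of_some hV (Affine.nonsingular_add hP (nonsingular_cst hQ)
          fun h1 => hXr h1.1) hrb hred.2.1 hred.2.2
          (-(.some r s hQ : W.Point))
        have h0 : Red V (.some xP yP hP) (0 : W.Point) := hXV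
        have hsum : (Affine.Point.some _ _ hP : (WF W).Point) + ι (.some r s hQ)
            + ι (-(.some r s hQ : W.Point)) = .some _ _ hP := by
          rw [map_neg, add_neg_cancel_right]
        rw [ι_some, Affine.Point.add_of_X_ne hXr] at hsum
        erw [hsum] at h2
        have h3 := h0.unique hV h2
        rw [show (Affine.Point.some _ _ hrb : W.Point) = -(.some r s hQ : W.Point) from rfl]
          at h3
        have h4 : (Affine.Point.some r s hQ : W.Point) = -(.some r s hQ : W.Point) := by
          rw [eq_neg_iff_add_eq_zero, ← neg_inj, neg_add, neg_zero]; exact h3.symm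
        simp only [Affine.Point.neg_some, Affine.Point.some.injEq] at h4
        refine ⟨hred.1, hred.2.1, ?_⟩
        have h5 := hred.2.2
        rwa [← h4.2] at h5

end Fermat.Agent.Isogeny
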